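import Fermat.Agent.S05.Ord

set_option autoImplicit false

/-!
# The valuation table for the Kummer relations of a Tate-like cubic

Work package B of S05: pure valuation bookkeeping.  For the cubic
`y² = x (x + δ) (x + γ)` with `ord δ = μ > 0`, `ord γ = 0`, the Kummer relations
for `x(P ± Q)` (resp. the duplication formula) determine the truncated orders
`clamp μ (ord x(P ± Q))` from those of `x(P)`, `x(Q)`.
-/

namespace Fermat.Agent.S05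

section WPB

variable {K : Type*} [Field K] {G : Type*} [AddCommGroup G] [LinearOrder G] [IsOrderedAddMonoid G]

/-- Truncation of an order to the interval `[0, μ]`. -/
def clamp (μ g : G) : G := max 0 (min g μ)

namespace Table

omit [IsOrderedAddMonoid G] in
lemma clamp_of_le {μ g : G} (hμ : 0 ≤ μ) (h : g ≤ 0) : clamp μ g = 0 := by
  unfold clamp; grind

omit [IsOrderedAddMonoid G] in
lemma clamp_of_ge {μ g : G} (hμ : 0 ≤ μ) (h : μ ≤ g) : clamp μ g = μ := by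
  unfold clamp; grind

omit [IsOrderedAddMonoid G] in
lemma clamp_of_mem {μ g : G} (h0 : 0 ≤ g) (h : g ≤ μ) : clamp μ g = g := by
  unfold clamp; grind

/-- The purely order-theoretic core of `table_generic`, when `a ≤ b`. -/
theorem pure_le {a b d e sp sm σ ν μ : G} {Z : Prop} (hμ : 0 < μ) (hab : a ≤ b)
    (hsum : 2 • d + (sp + sm) = 2 • e)
    (hd : a ≤ d) (hd' : a < b → d = a)
    (he1 : a + b < μ → e = a + b) (he2 : μ < a + b → e = μ) (he3 : a + b = μ → μ ≤ e)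
    (hν : ¬Z → σ + 2 • d = ν)
    (h4 : sp ≠ sm → ¬Z ∧ σ = min sp sm)
    (h4' : ¬Z → min sp sm ≤ σ)
    (h6 : Z ∨ min (a + b + a) (min (a + b) (μ + a)) ≤ ν)
    (h6' : 0 < a → b < μ → ¬Z ∧ ν = a + b) :
    ((clamp μ sp = clamp μ a + clamp μ b ∨ clamp μ sp = 2 • μ - clamp μ a - clamp μ b) ∧
      (clamp μ sm = clamp μ a - clamp μ b ∨ clamp μ sm = clamp μ b - clamp μ a)) ∨
    ((clamp μ sm = clamp μ a + clamp μ b ∨ clamp μ sm = 2 • μ - clamp μ a - clamp μ b) ∧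
      (clamp μ sp = clamp μ a - clamp μ b ∨ clamp μ sp = clamp μ b - clamp μ a)) := by
  have hμ0 : 0 ≤ μ := hμ.le
  rcases le_or_gt b 0 with hb0 | hb0
  · -- case 1: `a ≤ b ≤ 0`
    have h1 : sp ≤ 0 ∧ sm ≤ 0 := by grind
    rw [clamp_of_le hμ0 h1.1, clamp_of_le hμ0 h1.2, clamp_of_le hμ0 hb0,
      clamp_of_le hμ0 (hab.trans hb0)]
    simp
  rcases le_or_gt a 0 with ha0 | ha0
  · rcases lt_or_ge b μ with hbμ | hbμ
    · -- case 2: `a ≤ 0 < b < μ`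
      have h1 : sp = b ∧ sm = b := by grind
      rw [h1.1, h1.2, clamp_of_le hμ0 ha0, clamp_of_mem hb0.le hbμ.le]
      simp
    · -- case 3: `a ≤ 0`, `μ ≤ b`
      have h1 : μ ≤ sp ∧ μ ≤ sm := by grind
      rw [clamp_of_ge hμ0 h1.1, clamp_of_ge hμ0 h1.2, clamp_of_le hμ0 ha0, clamp_of_ge hμ0 hbμ]
      simp
  rcases le_or_gt μ a with haμ | haμ
  · -- case 6: `μ ≤ a ≤ b`
    have h1 : sp ≤ 0 ∧ sm ≤ 0 := by grind
    rw [clamp_of_le hμ0 h1.1, clamp_of_le hμ0 h1.2, clamp_of_ge hμ0 haμ,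
      clamp_of_ge hμ0 (haμ.trans hab)]
    left
    exact ⟨Or.inr (by grind), Or.inl (by grind)⟩
  rcases le_or_gt μ b with hbμ | hbμ
  · -- case 5: `0 < a < μ ≤ b`
    have h1 : sp = μ - a ∧ sm = μ - a := by grind
    have h2 : clamp μ (μ - a) = μ - a := clamp_of_mem (by grind) (by grind)
    rw [h1.1, h1.2, h2, clamp_of_mem ha0.le haμ.le, clamp_of_ge hμ0 hbμ]
    left
    exact ⟨Or.inr (by grind), Or.inr rfl⟩
  -- case 4: `0 < a ≤ b < μ`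
  obtain ⟨hZ, hνe⟩ := h6' ha0 hbμ
  have hσ' : σ = a + b - 2 • d := by grind
  have hne : sp ≠ sm := by grind
  have hσ : σ = min sp sm := (h4 hne).2
  have hm : clamp μ (a + b - 2 • d) = b - a := by
    rcases hab.lt_or_eq with h | h
    · rw [hd' h]
      exact (clamp_of_mem (by grind) (by grind)).trans (by grind)
    · exact (clamp_of_le hμ0 (by grind)).trans (by grind)
  have hM : clamp μ (2 • e - a - b) = a + b ∨ clamp μ (2 • e - a - b) = 2 • μ - a - b := by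
    rcases lt_trichotomy (a + b) μ with h | h | h
    · left; rw [he1 h]; exact (clamp_of_mem (by grind) (by grind)).trans (by grind)
    · left; exact (clamp_of_ge hμ0 (by grind)).trans (by grind)
    · right; rw [he2 h]; exact clamp_of_mem (by grind) (by grind)
  rw [clamp_of_mem ha0.le haμ.le, clamp_of_mem hb0.le hbμ.le]
  rcases le_total sp sm with h | h
  · right
    have e1 : sp = a + b - 2 • d := by grind
    have e2 : sm = 2 • e - a - b := by grind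
    rw [e1, e2, hm]
    exact ⟨hM, Or.inr rfl⟩
  · left
    have e1 : sm = a + b - 2 • d := by grind
    have e2 : sp = 2 • e - a - b := by grind
    rw [e1, e2, hm]
    exact ⟨hM, Or.inr rfl⟩

open OrdData

lemma four_unit (V : OrdData K G) (h2 : (2 : K) ≠ 0) (h2u : V.ord (2 : K) = 0) :
    (4 : K) ≠ 0 ∧ V.ord (4 : K) = 0 := by
  have e : (4 : K) = 2 * 2 := by norm_num
  refine ⟨by rw [e]; exact mul_ne_zero h2 h2, ?_⟩
  rw [e, V.ord_mul _ _ h2 h2, h2u, add_zero]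

/-- `table_generic` under the extra assumption `ord u₁ ≤ ord u₂`. -/
theorem generic_le (V : OrdData K G) {δ γ u₁ u₂ up um : K} {μ : G}
    (h2 : (2 : K) ≠ 0) (h2u : V.ord (2 : K) = 0)
    (hδ0 : δ ≠ 0) (hδ : V.ord δ = μ) (hμ : 0 < μ) (hγ0 : γ ≠ 0) (hγ : V.ord γ = 0)
    (hu₁ : u₁ ≠ 0) (hu₂ : u₂ ≠ 0) (hup : up ≠ 0) (hum : um ≠ 0) (hne : u₁ ≠ u₂)
    (hK1 : (u₁ - u₂) ^ 2 * (up * um) = (u₁ * u₂ - δ * γ) ^ 2)
    (hK2 : (u₁ - u₂) ^ 2 * (up + um) =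
      2 * u₁ * u₂ * (u₁ + u₂) + 4 * (δ + γ) * u₁ * u₂ + 2 * δ * γ * (u₁ + u₂))
    (hab : V.ord u₁ ≤ V.ord u₂) :
    ((clamp μ (V.ord up) = clamp μ (V.ord u₁) + clamp μ (V.ord u₂) ∨
        clamp μ (V.ord up) = 2 • μ - clamp μ (V.ord u₁) - clamp μ (V.ord u₂)) ∧
      (clamp μ (V.ord um) = clamp μ (V.ord u₁) - clamp μ (V.ord u₂) ∨
        clamp μ (V.ord um) = clamp μ (V.ord u₂) - clamp μ (V.ord u₁))) ∨
    ((clamp μ (V.ord um) = clamp μ (V.ord u₁) + clamp μ (V.ord u₂) ∨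
        clamp μ (V.ord um) = 2 • μ - clamp μ (V.ord u₁) - clamp μ (V.ord u₂)) ∧
      (clamp μ (V.ord up) = clamp μ (V.ord u₁) - clamp μ (V.ord u₂) ∨
        clamp μ (V.ord up) = clamp μ (V.ord u₂) - clamp μ (V.ord u₁))) := by
  have hD0 : u₁ - u₂ ≠ 0 := sub_ne_zero.mpr hne
  have hD2 : (u₁ - u₂) ^ 2 ≠ 0 := pow_ne_zero 2 hD0
  have hpm : up * um ≠ 0 := mul_ne_zero hup hum
  have hE2 : (u₁ * u₂ - δ * γ) ^ 2 ≠ 0 := by rw [← hK1]; exact mul_ne_zero hD2 hpm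
  have hE0 : u₁ * u₂ - δ * γ ≠ 0 := fun h => hE2 (by rw [h]; ring)
  -- (f1)
  have hsum : 2 • V.ord (u₁ - u₂) + (V.ord up + V.ord um) = 2 • V.ord (u₁ * u₂ - δ * γ) := by
    have := congrArg V.ord hK1
    rwa [V.ord_mul _ _ hD2 hpm, V.ord_pow hD0, V.ord_mul _ _ hup hum, V.ord_pow hE0] at this
  -- (f2)
  have g1 : V.Ge u₁ (V.ord u₁) := ge_of_ne hu₁ le_rfl
  have g2 : V.Ge u₂ (V.ord u₁) := ge_of_ne hu₂ hab
  have g2' : V.Ge u₂ (V.ord u₂) := ge_of_ne hu₂ le_rfl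
  have hd : V.ord u₁ ≤ V.ord (u₁ - u₂) := (Ge.sub g1 g2).le hD0
  have hd' : V.ord u₁ < V.ord u₂ → V.ord (u₁ - u₂) = V.ord u₁ := fun h =>
    (ord_sub_eq hu₁ (gt_of_ne hu₂ h)).2
  -- (f3)
  have h12 : u₁ * u₂ ≠ 0 := mul_ne_zero hu₁ hu₂
  have hδγ : δ * γ ≠ 0 := mul_ne_zero hδ0 hγ0
  have o12 : V.ord (u₁ * u₂) = V.ord u₁ + V.ord u₂ := V.ord_mul _ _ hu₁ hu₂
  have oδγ : V.ord (δ * γ) = μ := by rw [V.ord_mul _ _ hδ0 hγ0, hδ, hγ, add_zero]
  have he1 : V.ord u₁ + V.ord u₂ < μ → V.ord (u₁ * u₂ - δ * γ) = V.ord u₁ + V.ord u₂ :=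
    fun h => (ord_sub_eq h12 (gt_of_ne hδγ (by rw [o12, oδγ]; exact h))).2.trans o12
  have he2 : μ < V.ord u₁ + V.ord u₂ → V.ord (u₁ * u₂ - δ * γ) = μ :=
    fun h => (ord_sub_eq' hδγ (gt_of_ne h12 (by rw [o12, oδγ]; exact h))).2.trans oδγ
  have he3 : V.ord u₁ + V.ord u₂ = μ → μ ≤ V.ord (u₁ * u₂ - δ * γ) := fun h =>
    (Ge.sub (ge_of_ne h12 (by rw [o12, h])) (ge_of_ne hδγ (le_of_eq oδγ.symm))).le hE0
  -- (f5)
  obtain ⟨N, hN⟩ : ∃ N, N = 2 * u₁ * u₂ * (u₁ + u₂) + 4 * (δ + γ) * u₁ * u₂ +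
      2 * δ * γ * (u₁ + u₂) := ⟨_, rfl⟩
  rw [← hN] at hK2
  have hZ : N ≠ 0 → up + um ≠ 0 := fun h h' => h (by rw [← hK2, h', mul_zero])
  have hZ' : up + um ≠ 0 → N ≠ 0 := fun h => by rw [← hK2]; exact mul_ne_zero hD2 h
  have hν : ¬ N = 0 → V.ord (up + um) + 2 • V.ord (u₁ - u₂) = V.ord N := fun h => by
    rw [← hK2, V.ord_mul _ _ hD2 (hZ h), V.ord_pow hD0, add_comm]
  -- (f4)
  have h4 : V.ord up ≠ V.ord um →
      ¬ N = 0 ∧ V.ord (up + um) = min (V.ord up) (V.ord um) := fun h =>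
    ⟨hZ' (ord_add_of_ne hup hum h).1, (ord_add_of_ne hup hum h).2⟩
  have h4' : ¬ N = 0 → min (V.ord up) (V.ord um) ≤ V.ord (up + um) := fun h =>
    V.ord_add _ _ hup hum (hZ h)
  -- (f6)
  have i2 : V.Ge (2 : K) 0 := Ge.ofNat 2
  have i4 : V.Ge (4 : K) 0 := Ge.ofNat 4
  have gδ : V.Ge δ μ := ge_of_ne hδ0 (le_of_eq hδ.symm)
  have gγ : V.Ge γ 0 := ge_of_ne hγ0 (le_of_eq hγ.symm)
  have gs : V.Ge (u₁ + u₂) (V.ord u₁) := g1.add g2
  have t1 : V.Ge (2 * u₁ * u₂ * (u₁ + u₂)) (V.ord u₁ + V.ord u₂ + V.ord u₁) :=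
    ((Ge.mul_left0 i2 g1).mul g2').mul gs
  have t2 : V.Ge (4 * (δ + γ) * u₁ * u₂) (V.ord u₁ + V.ord u₂) :=
    (Ge.mul_left0 (i4.mul0 ((gδ.mono hμ.le).add gγ)) g1).mul g2'
  have t3 : V.Ge (2 * δ * γ * (u₁ + u₂)) (μ + V.ord u₁) :=
    (Ge.mul_right0 (Ge.mul_left0 i2 gδ) gγ).mul gs
  have h6 : V.Ge N (min (V.ord u₁ + V.ord u₂ + V.ord u₁)
      (min (V.ord u₁ + V.ord u₂) (μ + V.ord u₁))) := by
    rw [hN]
    exact Ge.add (Ge.add (t1.mono (min_le_left _ _))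
      (t2.mono ((min_le_right _ _).trans (min_le_left _ _))))
      (t3.mono ((min_le_right _ _).trans (min_le_right _ _)))
  have h6' : 0 < V.ord u₁ → V.ord u₂ < μ → ¬ N = 0 ∧ V.ord N = V.ord u₁ + V.ord u₂ := by
    intro ha hb
    have hδγ' : δ + γ ≠ 0 ∧ V.ord (δ + γ) = V.ord γ :=
      ord_add_eq' hγ0 (gt_of_ne hδ0 (by rw [hγ, hδ]; exact hμ))
    obtain ⟨h40, h4u⟩ := four_unit V h2 h2u
    have hm1 : 4 * (δ + γ) ≠ 0 := mul_ne_zero h40 hδγ'.1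
    have hm2 : 4 * (δ + γ) * u₁ ≠ 0 := mul_ne_zero hm1 hu₁
    have hm : 4 * (δ + γ) * u₁ * u₂ ≠ 0 := mul_ne_zero hm2 hu₂
    have om : V.ord (4 * (δ + γ) * u₁ * u₂) = V.ord u₁ + V.ord u₂ := by
      rw [V.ord_mul _ _ hm2 hu₂, V.ord_mul _ _ hm1 hu₁, V.ord_mul _ _ h40 hδγ'.1, h4u, hδγ'.2,
        hγ, add_zero, zero_add]
    have e : N = 4 * (δ + γ) * u₁ * u₂ +
        (2 * u₁ * u₂ * (u₁ + u₂) + 2 * δ * γ * (u₁ + u₂)) := by rw [hN]; ring
    have hgt : V.Gt (2 * u₁ * u₂ * (u₁ + u₂) + 2 * δ * γ * (u₁ + u₂))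
        (V.ord (4 * (δ + γ) * u₁ * u₂)) := by
      rw [om]
      refine Gt.add ?_ ?_
      · exact t1.gt_of_lt (by grind)
      · exact t3.gt_of_lt (by grind)
    have := ord_add_eq hm hgt
    rw [← e, om] at this
    exact this
  exact pure_le hμ hab hsum hd hd' he1 he2 he3 hν h4 h4' h6 h6'

/-- The purely order-theoretic core of `table_dbl`. -/
theorem dbl_pure {a x y e s μ : G} (hμ : 0 < μ)
    (hsum : s + (a + x + y) = 2 • e)
    (hx : min a μ ≤ x) (hx' : a ≠ μ → x = min a μ)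
    (hy : min a 0 ≤ y) (hy' : a ≠ 0 → y = min a 0)
    (he1 : 2 • a < μ → e = 2 • a) (he2 : μ < 2 • a → e = μ) (he3 : 2 • a = μ → μ ≤ e) :
    clamp μ s = 2 • clamp μ a ∨ clamp μ s = 2 • μ - 2 • clamp μ a := by
  have hμ0 : 0 ≤ μ := hμ.le
  rcases le_or_gt a 0 with ha0 | ha0
  · -- `a ≤ 0`
    have h1 : s ≤ 0 := by grind
    rw [clamp_of_le hμ0 h1, clamp_of_le hμ0 ha0]
    left; simp
  rcases le_or_gt μ a with haμ | haμ
  · -- `μ ≤ a`
    have h1 : s ≤ 0 := by grind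
    rw [clamp_of_le hμ0 h1, clamp_of_ge hμ0 haμ]
    right; simp
  -- `0 < a < μ`
  rw [clamp_of_mem ha0.le haμ.le]
  have hx1 : x = a := by grind
  have hy1 : y = 0 := by grind
  rcases lt_trichotomy (2 • a) μ with h | h | h
  · left; exact (clamp_of_mem (by grind) (by grind)).trans (by grind)
  · left; exact (clamp_of_ge hμ0 (by grind)).trans (by grind)
  · right; exact (clamp_of_mem (by grind) (by grind)).trans (by grind)

end Table

open OrdData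

/-- **Valuation table, generic case.**  The Kummer relations for `u(P ± Q)` determine the
truncated orders of `u(P + Q)`, `u(P - Q)` (up to swapping) from those of `u(P)`, `u(Q)`. -/
theorem table_generic (V : OrdData K G) {δ γ u₁ u₂ up um : K} {μ : G}
    (h2 : (2 : K) ≠ 0) (h2u : V.ord (2 : K) = 0)
    (hδ0 : δ ≠ 0) (hδ : V.ord δ = μ) (hμ : 0 < μ) (hγ0 : γ ≠ 0) (hγ : V.ord γ = 0)
    (hu₁ : u₁ ≠ 0) (hu₂ : u₂ ≠ 0) (hup : up ≠ 0) (hum : um ≠ 0) (hne : u₁ ≠ u₂)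
    (hK1 : (u₁ - u₂) ^ 2 * (up * um) = (u₁ * u₂ - δ * γ) ^ 2)
    (hK2 : (u₁ - u₂) ^ 2 * (up + um) =
      2 * u₁ * u₂ * (u₁ + u₂) + 4 * (δ + γ) * u₁ * u₂ + 2 * δ * γ * (u₁ + u₂)) :
    ((clamp μ (V.ord up) = clamp μ (V.ord u₁) + clamp μ (V.ord u₂) ∨
        clamp μ (V.ord up) = 2 • μ - clamp μ (V.ord u₁) - clamp μ (V.ord u₂)) ∧
      (clamp μ (V.ord um) = clamp μ (V.ord u₁) - clamp μ (V.ord u₂) ∨
        clamp μ (V.ord um) = clamp μ (V.ord u₂) - clamp μ (V.ord u₁))) ∨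
    ((clamp μ (V.ord um) = clamp μ (V.ord u₁) + clamp μ (V.ord u₂) ∨
        clamp μ (V.ord um) = 2 • μ - clamp μ (V.ord u₁) - clamp μ (V.ord u₂)) ∧
      (clamp μ (V.ord up) = clamp μ (V.ord u₁) - clamp μ (V.ord u₂) ∨
        clamp μ (V.ord up) = clamp μ (V.ord u₂) - clamp μ (V.ord u₁))) := by
  rcases le_total (V.ord u₁) (V.ord u₂) with hab | hab
  · exact Table.generic_le V h2 h2u hδ0 hδ hμ hγ0 hγ hu₁ hu₂ hup hum hne hK1 hK2 hab
  · have h := Table.generic_le V h2 h2u hδ0 hδ hμ hγ0 hγ hu₂ hu₁ hup hum (Ne.symm hne)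
      (by linear_combination hK1) (by linear_combination hK2) hab
    rw [add_comm (clamp μ (V.ord u₂)) (clamp μ (V.ord u₁)),
      sub_right_comm (2 • μ) (clamp μ (V.ord u₂)) (clamp μ (V.ord u₁))] at h
    exact h.imp (And.imp id Or.symm) (And.imp id Or.symm)

/-- **Valuation table, duplication.**  The duplication formula determines the truncated
order of `u(2P)` from that of `u(P)`. -/
theorem table_dbl (V : OrdData K G) {δ γ u u' : K} {μ : G}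
    (h2 : (2 : K) ≠ 0) (h2u : V.ord (2 : K) = 0)
    (hδ0 : δ ≠ 0) (hδ : V.ord δ = μ) (hμ : 0 < μ) (hγ0 : γ ≠ 0) (hγ : V.ord γ = 0)
    (hu : u ≠ 0) (hu' : u' ≠ 0)
    (hD : u' * (4 * u * (u + δ) * (u + γ)) = (u ^ 2 - δ * γ) ^ 2) :
    clamp μ (V.ord u') = 2 • clamp μ (V.ord u) ∨
      clamp μ (V.ord u') = 2 • μ - 2 • clamp μ (V.ord u) := by
  obtain ⟨h40, h4u⟩ := Table.four_unit V h2 h2u
  have hδγ : δ * γ ≠ 0 := mul_ne_zero hδ0 hγ0
  have oδγ : V.ord (δ * γ) = μ := by rw [V.ord_mul _ _ hδ0 hγ0, hδ, hγ, add_zero]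
  have hu2 : u ^ 2 ≠ 0 := pow_ne_zero 2 hu
  have ou2 : V.ord (u ^ 2) = 2 • V.ord u := V.ord_pow hu 2
  -- the factors `u + δ`, `u + γ`
  have hx : V.ord u ≠ μ → u + δ ≠ 0 ∧ V.ord (u + δ) = min (V.ord u) μ := fun h => by
    have := ord_add_of_ne (V := V) hu hδ0 (by rw [hδ]; exact h)
    rwa [hδ] at this
  have hy : V.ord u ≠ 0 → u + γ ≠ 0 ∧ V.ord (u + γ) = min (V.ord u) 0 := fun h => by
    have := ord_add_of_ne (V := V) hu hγ0 (by rw [hγ]; exact h)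
    rwa [hγ] at this
  have hx' : u + δ ≠ 0 → min (V.ord u) μ ≤ V.ord (u + δ) := fun h => by
    have := V.ord_add u δ hu hδ0 h
    rwa [hδ] at this
  have hy' : u + γ ≠ 0 → min (V.ord u) 0 ≤ V.ord (u + γ) := fun h => by
    have := V.ord_add u γ hu hγ0 h
    rwa [hγ] at this
  -- the numerator `u ^ 2 - δ * γ`
  have he1 : 2 • V.ord u < μ →
      u ^ 2 - δ * γ ≠ 0 ∧ V.ord (u ^ 2 - δ * γ) = 2 • V.ord u := fun h => by
    have := ord_sub_eq (V := V) hu2 (gt_of_ne hδγ (by rw [ou2, oδγ]; exact h))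
    rwa [ou2] at this
  have he2 : μ < 2 • V.ord u → u ^ 2 - δ * γ ≠ 0 ∧ V.ord (u ^ 2 - δ * γ) = μ := fun h => by
    have := ord_sub_eq' (V := V) hδγ (gt_of_ne hu2 (by rw [ou2, oδγ]; exact h))
    rwa [oδγ] at this
  have he3 : u ^ 2 - δ * γ ≠ 0 → 2 • V.ord u = μ → μ ≤ V.ord (u ^ 2 - δ * γ) := fun h0 h =>
    (Ge.sub (ge_of_ne hu2 (by rw [ou2, h])) (ge_of_ne hδγ (le_of_eq oδγ.symm))).le h0
  have hE : u ^ 2 - δ * γ ≠ 0 := by
    rcases lt_trichotomy (2 • V.ord u) μ with h | h | h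
    · exact (he1 h).1
    · have ha0 : V.ord u ≠ 0 := by grind
      have haμ : V.ord u ≠ μ := by grind
      intro hE0
      rw [hE0] at hD
      have hne : u' * (4 * u * (u + δ) * (u + γ)) ≠ 0 :=
        mul_ne_zero hu' (mul_ne_zero (mul_ne_zero (mul_ne_zero h40 hu) (hx haμ).1) (hy ha0).1)
      exact hne (by rw [hD]; ring)
    · exact (he2 h).1
  have hP : 4 * u * (u + δ) * (u + γ) ≠ 0 := by
    intro h
    rw [h, mul_zero] at hD
    exact pow_ne_zero 2 hE hD.symm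
  have hxδ : u + δ ≠ 0 := fun h => hP (by rw [h]; ring)
  have hyγ : u + γ ≠ 0 := fun h => hP (by rw [h]; ring)
  have h4u0 : 4 * u ≠ 0 := mul_ne_zero h40 hu
  have hsum : V.ord u' + (V.ord u + V.ord (u + δ) + V.ord (u + γ)) =
      2 • V.ord (u ^ 2 - δ * γ) := by
    have := congrArg V.ord hD
    rwa [V.ord_mul _ _ hu' hP, V.ord_mul _ _ (mul_ne_zero h4u0 hxδ) hyγ,
      V.ord_mul _ _ h4u0 hxδ, V.ord_mul _ _ h40 hu, h4u, zero_add, V.ord_pow hE] at this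
  exact Table.dbl_pure hμ hsum (hx' hxδ) (fun h => (hx h).2) (hy' hyγ) (fun h => (hy h).2)
    (fun h => (he1 h).2) (fun h => (he2 h).2) (he3 hE)

end WPB

end Fermat.Agent.S05
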