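import Fermat.Agent.S05.Kummer
import Fermat.Agent.S05.Table

set_option autoImplicit false

namespace Fermat.Agent.S05.Iota

open WeierstrassCurve WeierstrassCurve.Affine Fermat.Agent.S05

/-! ### Equality up to sign in an abelian group -/

/-- Equality up to sign. -/
def PM {Q : Type*} [AddCommGroup Q] (a b : Q) : Prop := a = b ∨ a = -b

namespace PM

variable {Q : Type*} [AddCommGroup Q] {a b c : Q}

lemma refl (a : Q) : PM a a := Or.inl rfl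

lemma of_eq (h : a = b) : PM a b := Or.inl h

lemma symm (h : PM a b) : PM b a := by
  rcases h with h | h
  · exact Or.inl h.symm
  · right; rw [h, neg_neg]

lemma trans (h : PM a b) (h' : PM b c) : PM a c := by
  rcases h with rfl | rfl <;> rcases h' with rfl | rfl
  · left; rfl
  · right; rfl
  · right; rfl
  · left; simp

lemma neg_right (h : PM a b) : PM a (-b) := by
  rcases h with h | h
  · right; rw [h, neg_neg]
  · left; exact h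

lemma of_neg_right (h : PM a (-b)) : PM a b := by
  have := h.neg_right
  rwa [neg_neg] at this

lemma zero_left (h : PM 0 b) : b = 0 := by
  rcases h with h | h
  · exact h.symm
  · exact neg_eq_zero.mp h.symm

lemma step {a y x fp fm : Q} (ha : PM a y) (hm : PM fm (y - x))
    (h : (PM fp (a + x) ∧ PM fm (a - x)) ∨ (PM fm (a + x) ∧ PM fp (a - x))) :
    PM fp (y + x) := by
  rcases ha with rfl | rfl
  · rcases h with ⟨h1, -⟩ | ⟨h1, h2⟩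
    · exact h1
    · exact h2.trans (hm.symm.trans h1)
  · have e1 : -y + x = -(y - x) := by abel
    have e2 : -y - x = -(y + x) := by abel
    rw [e1, e2] at h
    rcases h with ⟨h1, h2⟩ | ⟨-, h2⟩
    · exact h1.of_neg_right.trans (hm.symm.trans h2.of_neg_right)
    · exact h2.of_neg_right

lemma step_zero {x : Q} {n : ℕ} (h1 : PM 0 ((n + 1) • x)) : PM x ((n + 1 + 1) • x) := by
  have e : (n + 1 + 1) • x = (n + 1) • x + x := succ_nsmul x (n + 1)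
  rw [e, h1.zero_left, zero_add]
  exact refl x

lemma step_eq {x f2 : Q} {n : ℕ} (h0 : PM 0 (n • x)) (hd : PM f2 (2 • x)) :
    PM f2 ((n + 1 + 1) • x) := by
  have e : (n + 1 + 1) • x = n • x + 2 • x := by
    rw [succ_nsmul x (n + 1), succ_nsmul x n, two_nsmul x, add_assoc]
  rw [e, h0.zero_left, zero_add]
  exact hd

lemma step_neg {x f2 : Q} {n : ℕ} (h0 : PM f2 (n • x)) (h1 : PM x ((n + 1) • x))
    (hd : PM f2 (2 • x)) : PM 0 ((n + 1 + 1) • x) := by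
  have e : (n + 1 + 1) • x = n • x + 2 • x := by
    rw [succ_nsmul x (n + 1), succ_nsmul x n, two_nsmul x, add_assoc]
  have e1 : (n + 1) • x = n • x + x := succ_nsmul x n
  have h02 : PM (n • x) (2 • x) := h0.symm.trans hd
  refine of_eq (Eq.symm ?_)
  rw [e]
  rcases h1 with h1 | h1
  · -- `x = (n+1)x`, so `n x = 0`
    have hn : n • x = 0 := by
      rw [e1] at h1
      exact right_eq_add.mp h1
    rw [hn] at h02 ⊢
    rw [h02.zero_left, add_zero]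
  · -- `x = -(n+1)x`
    rw [e1] at h1
    have h3 : n • x + 2 • x = x + (n • x + x) := by rw [two_nsmul x]; abel
    rw [h3]
    nth_rewrite 1 [h1]
    abel

lemma step_generic {x a fp fm : Q} {n : ℕ} (h0 : PM fm (n • x)) (h1 : PM a ((n + 1) • x))
    (h : (PM fp (a + x) ∧ PM fm (a - x)) ∨ (PM fm (a + x) ∧ PM fp (a - x))) :
    PM fp ((n + 1 + 1) • x) := by
  have e : (n + 1 + 1) • x = (n + 1) • x + x := succ_nsmul x (n + 1)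
  have e1 : n • x = (n + 1) • x - x := by rw [succ_nsmul x n, add_sub_cancel_right]
  rw [e]
  rw [e1] at h0
  exact step h1 h0 h

end PM

/-! ### Algebraic identities in terms of the roots -/

section identities

variable {K : Type*} [Field K] {W : Affine K}

lemma psiSq_roots {ε₁ ε₂ ε₃ : K} (hb₂ : W.b₂ = -4 * (ε₁ + ε₂ + ε₃))
    (hb₄ : W.b₄ = 2 * (ε₁ * ε₂ + ε₁ * ε₃ + ε₂ * ε₃)) (hb₆ : W.b₆ = -4 * (ε₁ * ε₂ * ε₃)) (x : K) :
    psiSq W x = 4 * (x - ε₁) * ((x - ε₁) + (ε₁ - ε₂)) * ((x - ε₁) + (ε₁ - ε₃)) := by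
  simp only [psiSq, hb₂, hb₄, hb₆]
  ring

lemma dblNum_roots (h2 : (2 : K) ≠ 0) {ε₁ ε₂ ε₃ : K} (hb₂ : W.b₂ = -4 * (ε₁ + ε₂ + ε₃))
    (hb₄ : W.b₄ = 2 * (ε₁ * ε₂ + ε₁ * ε₃ + ε₂ * ε₃)) (hb₆ : W.b₆ = -4 * (ε₁ * ε₂ * ε₃)) (x : K) :
    dblNum W x - ε₁ * psiSq W x = ((x - ε₁) ^ 2 - (ε₁ - ε₂) * (ε₁ - ε₃)) ^ 2 := by
  have h4 : (4 : K) ≠ 0 := by
    have : (4 : K) = 2 ^ 2 := by norm_num
    rw [this]; exact pow_ne_zero 2 h2
  have hrel := W.b_relation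
  rw [hb₂, hb₄, hb₆] at hrel
  apply mul_left_cancel₀ h4
  simp only [psiSq, dblNum, hb₂, hb₄, hb₆]
  linear_combination (-1 : K) * hrel

lemma kumProd_roots (h2 : (2 : K) ≠ 0) {ε₁ ε₂ ε₃ : K} (hb₂ : W.b₂ = -4 * (ε₁ + ε₂ + ε₃))
    (hb₄ : W.b₄ = 2 * (ε₁ * ε₂ + ε₁ * ε₃ + ε₂ * ε₃)) (hb₆ : W.b₆ = -4 * (ε₁ * ε₂ * ε₃))
    (x₁ x₂ : K) :
    kumProd W x₁ x₂ - ε₁ * kumSum W x₁ x₂ + ε₁ ^ 2 * (x₁ - x₂) ^ 2 =
      ((x₁ - ε₁) * (x₂ - ε₁) - (ε₁ - ε₂) * (ε₁ - ε₃)) ^ 2 := by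
  have h4 : (4 : K) ≠ 0 := by
    have : (4 : K) = 2 ^ 2 := by norm_num
    rw [this]; exact pow_ne_zero 2 h2
  have hrel := W.b_relation
  rw [hb₂, hb₄, hb₆] at hrel
  apply mul_left_cancel₀ h4
  simp only [kumProd, kumSum, hb₂, hb₄, hb₆]
  linear_combination (-1 : K) * hrel

lemma kumSum_roots {ε₁ ε₂ ε₃ : K} (hb₂ : W.b₂ = -4 * (ε₁ + ε₂ + ε₃))
    (hb₄ : W.b₄ = 2 * (ε₁ * ε₂ + ε₁ * ε₃ + ε₂ * ε₃)) (hb₆ : W.b₆ = -4 * (ε₁ * ε₂ * ε₃))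
    (x₁ x₂ : K) :
    kumSum W x₁ x₂ - 2 * ε₁ * (x₁ - x₂) ^ 2 =
      2 * (x₁ - ε₁) * (x₂ - ε₁) * ((x₁ - ε₁) + (x₂ - ε₁)) +
        4 * ((ε₁ - ε₂) + (ε₁ - ε₃)) * (x₁ - ε₁) * (x₂ - ε₁) +
        2 * (ε₁ - ε₂) * (ε₁ - ε₃) * ((x₁ - ε₁) + (x₂ - ε₁)) := by
  simp only [kumSum, hb₂, hb₄, hb₆]
  ring

end identities

/-! ### The component map -/

section iota

variable {K : Type*} [Field K] {G : Type*} [AddCommGroup G] [LinearOrder G]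
  [IsOrderedAddMonoid G] {W : Affine K}

/-- The (unsigned) component map. -/
def iota (V : OrdData K G) (ε₁ : K) (μ : G) : W.Point → G
  | .zero => 0
  | .some x _ _ => clamp μ (V.ord (x - ε₁))

lemma iota_zero (V : OrdData K G) (ε₁ : K) (μ : G) : iota V ε₁ μ (0 : W.Point) = 0 := rfl

lemma iota_neg (V : OrdData K G) (ε₁ : K) (μ : G) (P : W.Point) :
    iota V ε₁ μ (-P) = iota V ε₁ μ P := by
  cases P <;> rfl

lemma iota_of_ne_zero (V : OrdData K G) (ε₁ : K) (μ : G) {P : W.Point} (hP : P ≠ 0) :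
    iota V ε₁ μ P = clamp μ (V.ord (xOf P - ε₁)) := by
  rcases P with _ | ⟨x, y, h⟩
  · exact absurd rfl hP
  · rfl

lemma exists_some {P : W.Point} (hP : P ≠ 0) :
    ∃ x y, ∃ h : W.Nonsingular x y, P = Point.some x y h := by
  rcases P with _ | ⟨x, y, h⟩
  · exact absurd rfl hP
  · exact ⟨x, y, h, rfl⟩

lemma eq_or_eq_neg_of_xOf_eq {P R : W.Point} (hP : P ≠ 0) (hR : R ≠ 0) (hx : xOf P = xOf R) :
    P = R ∨ P = -R := by
  obtain ⟨x₁, y₁, h₁, rfl⟩ := exists_some hP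
  obtain ⟨x₂, y₂, h₂, rfl⟩ := exists_some hR
  exact (Point.X_eq_iff (h₁ := h₁) (h₂ := h₂)).mp hx

variable [DecidableEq K]

/-- Odd torsion points are not two-torsion. -/
lemma add_self_ne_zero {p : ℕ} (hp : Odd p) {S : W.Point} (hS0 : S ≠ 0) (hS : p • S = 0) :
    S + S ≠ 0 := by
  intro h
  obtain ⟨k, rfl⟩ := hp
  apply hS0
  have h2 : (2 * k) • S = 0 := by
    rw [mul_comm, mul_smul, two_smul, h, smul_zero]
  rwa [add_smul, h2, zero_add, one_smul] at hS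

lemma u_ne_zero {ε₁ ε₂ ε₃ : K} (hb₂ : W.b₂ = -4 * (ε₁ + ε₂ + ε₃))
    (hb₄ : W.b₄ = 2 * (ε₁ * ε₂ + ε₁ * ε₃ + ε₂ * ε₃)) (hb₆ : W.b₆ = -4 * (ε₁ * ε₂ * ε₃))
    {p : ℕ} (hp : Odd p) {S : W.Point} (hS0 : S ≠ 0) (hS : p • S = 0) :
    xOf S - ε₁ ≠ 0 := by
  intro hu
  obtain ⟨x, y, h, rfl⟩ := exists_some hS0
  rw [xOf_some] at hu
  have hpsi : psiSq W x = 0 := by
    rw [psiSq_roots hb₂ hb₄ hb₆, hu]; ring
  exact add_self_ne_zero hp hS0 hS (dbl_zero h hpsi)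

/-- Class modulo `2μ`. -/
abbrev cls (μ : G) (g : G) : G ⧸ AddSubgroup.zmultiples (2 • μ) := (g : G ⧸ AddSubgroup.zmultiples (2 • μ))

omit [LinearOrder G] [IsOrderedAddMonoid G] in
lemma cls_two_mu (μ : G) : cls μ (2 • μ) = 0 :=
  (QuotientAddGroup.eq_zero_iff _).mpr (AddSubgroup.mem_zmultiples _)

omit [LinearOrder G] [IsOrderedAddMonoid G] in
lemma pm_add {μ a b c : G} (h : a = b + c ∨ a = 2 • μ - b - c) :
    PM (cls μ a) (cls μ b + cls μ c) := by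
  rcases h with h | h
  · left; rw [h]; rfl
  · right
    rw [h]
    have : cls μ (2 • μ - b - c) = cls μ (2 • μ) - cls μ b - cls μ c := rfl
    rw [this, cls_two_mu]; abel

omit [LinearOrder G] [IsOrderedAddMonoid G] in
lemma pm_sub {μ a b c : G} (h : a = b - c ∨ a = c - b) :
    PM (cls μ a) (cls μ b - cls μ c) := by
  rcases h with h | h
  · left; rw [h]; rfl
  · right
    rw [h]
    have : cls μ (c - b) = cls μ c - cls μ b := rfl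
    rw [this]; abel

omit [LinearOrder G] [IsOrderedAddMonoid G] in
lemma pm_two {μ a b : G} (h : a = 2 • b ∨ a = 2 • μ - 2 • b) :
    PM (cls μ a) (2 • cls μ b) := by
  rcases h with h | h
  · left; rw [h]; rfl
  · right
    rw [h]
    have : cls μ (2 • μ - 2 • b) = cls μ (2 • μ) - 2 • cls μ b := rfl
    rw [this, cls_two_mu]; abel

/-- The class of the component of a point, modulo `2μ`. -/
def comp (V : OrdData K G) (ε₁ ε₂ : K) (S : W.Point) :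
    G ⧸ AddSubgroup.zmultiples (2 • V.ord (ε₁ - ε₂)) :=
  cls (V.ord (ε₁ - ε₂)) (iota V ε₁ (V.ord (ε₁ - ε₂)) S)

omit [DecidableEq K] in
lemma comp_zero (V : OrdData K G) (ε₁ ε₂ : K) : comp V ε₁ ε₂ (0 : W.Point) = 0 := rfl

omit [DecidableEq K] in
lemma comp_neg (V : OrdData K G) (ε₁ ε₂ : K) (S : W.Point) :
    comp V ε₁ ε₂ (-S) = comp V ε₁ ε₂ S := by
  unfold comp; rw [iota_neg]

omit [DecidableEq K] in
lemma comp_of_ne_zero (V : OrdData K G) (ε₁ ε₂ : K) {S : W.Point} (hS : S ≠ 0) :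
    comp V ε₁ ε₂ S = cls (V.ord (ε₁ - ε₂))
      (clamp (V.ord (ε₁ - ε₂)) (V.ord (xOf S - ε₁))) := by
  unfold comp; rw [iota_of_ne_zero V ε₁ _ hS]

section main

variable (V : OrdData K G) (h2 : (2 : K) ≠ 0) (h2u : V.ord (2 : K) = 0)
    {ε₁ ε₂ ε₃ : K} (hb₂ : W.b₂ = -4 * (ε₁ + ε₂ + ε₃))
    (hb₄ : W.b₄ = 2 * (ε₁ * ε₂ + ε₁ * ε₃ + ε₂ * ε₃)) (hb₆ : W.b₆ = -4 * (ε₁ * ε₂ * ε₃))
    (hδ0 : ε₁ - ε₂ ≠ 0) (hμ : 0 < V.ord (ε₁ - ε₂)) (hγ0 : ε₁ - ε₃ ≠ 0)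
    (hγ : V.ord (ε₁ - ε₃) = 0) {p : ℕ} (hp : Odd p)

include h2 h2u hb₂ hb₄ hb₆ hδ0 hμ hγ0 hγ hp

lemma table_generic_cls {P R : W.Point} (hP0 : P ≠ 0) (hR0 : R ≠ 0) (hP : p • P = 0)
    (hR : p • R = 0) (hx : xOf P ≠ xOf R) :
    (PM (comp V ε₁ ε₂ (P + R)) (comp V ε₁ ε₂ P + comp V ε₁ ε₂ R) ∧
        PM (comp V ε₁ ε₂ (P - R)) (comp V ε₁ ε₂ P - comp V ε₁ ε₂ R)) ∨
      (PM (comp V ε₁ ε₂ (P - R)) (comp V ε₁ ε₂ P + comp V ε₁ ε₂ R) ∧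
        PM (comp V ε₁ ε₂ (P + R)) (comp V ε₁ ε₂ P - comp V ε₁ ε₂ R)) := by
  have hPR : p • (P + R) = 0 := by rw [smul_add, hP, hR, add_zero]
  have hPR' : p • (P - R) = 0 := by rw [smul_sub, hP, hR, sub_zero]
  obtain ⟨x₁, y₁, h₁, rfl⟩ := exists_some hP0
  obtain ⟨x₂, y₂, h₂, rfl⟩ := exists_some hR0
  simp only [xOf_some] at hx
  obtain ⟨hp0, hm0, hK1, hK2⟩ := kummer_generic h2 h₁ h₂ hx
  have hu₁ := u_ne_zero hb₂ hb₄ hb₆ hp hP0 hP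
  have hu₂ := u_ne_zero hb₂ hb₄ hb₆ hp hR0 hR
  have hup := u_ne_zero hb₂ hb₄ hb₆ hp hp0 hPR
  have hum := u_ne_zero hb₂ hb₄ hb₆ hp hm0 hPR'
  rw [comp_of_ne_zero V ε₁ ε₂ hP0, comp_of_ne_zero V ε₁ ε₂ hR0,
    comp_of_ne_zero V ε₁ ε₂ hp0, comp_of_ne_zero V ε₁ ε₂ hm0]
  simp only [xOf_some] at hu₁ hu₂ ⊢
  generalize xOf (Point.some x₁ y₁ h₁ + Point.some x₂ y₂ h₂) = xp at hK1 hK2 hup ⊢
  generalize xOf (Point.some x₁ y₁ h₁ - Point.some x₂ y₂ h₂) = xm at hK1 hK2 hum ⊢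
  have hne : x₁ - ε₁ ≠ x₂ - ε₁ := fun h => hx (sub_left_injective h)
  have hK1' : ((x₁ - ε₁) - (x₂ - ε₁)) ^ 2 * ((xp - ε₁) * (xm - ε₁)) =
      ((x₁ - ε₁) * (x₂ - ε₁) - (ε₁ - ε₂) * (ε₁ - ε₃)) ^ 2 := by
    linear_combination hK1 - ε₁ * hK2 + kumProd_roots h2 hb₂ hb₄ hb₆ x₁ x₂
  have hK2' : ((x₁ - ε₁) - (x₂ - ε₁)) ^ 2 * ((xp - ε₁) + (xm - ε₁)) =
      2 * (x₁ - ε₁) * (x₂ - ε₁) * ((x₁ - ε₁) + (x₂ - ε₁)) +
        4 * ((ε₁ - ε₂) + (ε₁ - ε₃)) * (x₁ - ε₁) * (x₂ - ε₁) +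
        2 * (ε₁ - ε₂) * (ε₁ - ε₃) * ((x₁ - ε₁) + (x₂ - ε₁)) := by
    linear_combination hK2 + kumSum_roots hb₂ hb₄ hb₆ x₁ x₂
  rcases table_generic V h2 h2u hδ0 rfl hμ hγ0 hγ hu₁ hu₂ hup hum hne hK1' hK2' with
    ⟨t1, t2⟩ | ⟨t1, t2⟩
  · exact Or.inl ⟨pm_add t1, pm_sub t2⟩
  · exact Or.inr ⟨pm_add t1, pm_sub t2⟩

lemma table_dbl_cls {S : W.Point} (hS0 : S ≠ 0) (hS : p • S = 0) :
    PM (comp V ε₁ ε₂ (S + S)) (2 • comp V ε₁ ε₂ S) := by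
  have hSS : p • (S + S) = 0 := by rw [smul_add, hS, add_zero]
  have hSS0 := add_self_ne_zero hp hS0 hS
  have hu := u_ne_zero hb₂ hb₄ hb₆ hp hS0 hS
  have hu' := u_ne_zero hb₂ hb₄ hb₆ hp hSS0 hSS
  rw [comp_of_ne_zero V ε₁ ε₂ hS0, comp_of_ne_zero V ε₁ ε₂ hSS0]
  obtain ⟨x, y, h, rfl⟩ := exists_some hS0
  simp only [xOf_some] at hu ⊢
  have hpsi : psiSq W x ≠ 0 := by
    intro hpsi
    exact hSS0 (dbl_zero h hpsi)
  obtain ⟨-, hform⟩ := dbl_formula h2 h hpsi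
  generalize xOf (Point.some x y h + Point.some x y h) = x' at hform hu' ⊢
  have hD : (x' - ε₁) * (4 * (x - ε₁) * ((x - ε₁) + (ε₁ - ε₂)) * ((x - ε₁) + (ε₁ - ε₃))) =
      ((x - ε₁) ^ 2 - (ε₁ - ε₂) * (ε₁ - ε₃)) ^ 2 := by
    rw [← psiSq_roots hb₂ hb₄ hb₆, ← dblNum_roots h2 hb₂ hb₄ hb₆]
    linear_combination hform
  exact pm_two (table_dbl V h2 h2u hδ0 rfl hμ hγ0 hγ hu hu' hD)

theorem multiples (T : W.Point) (hT0 : T ≠ 0) (hT : p • T = 0) (n : ℕ) :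
    PM (comp V ε₁ ε₂ (n • T)) (n • comp V ε₁ ε₂ T) ∧
      PM (comp V ε₁ ε₂ ((n + 1) • T)) ((n + 1) • comp V ε₁ ε₂ T) := by
  induction n with
  | zero =>
    refine ⟨?_, ?_⟩
    · rw [zero_smul, zero_smul]; exact PM.refl _
    · rw [zero_add, one_smul, one_smul]; exact PM.refl _
  | succ n ih =>
    obtain ⟨ih0, ih1⟩ := ih
    refine ⟨ih1, ?_⟩
    have hPp : p • ((n + 1) • T) = 0 := by rw [smul_comm, hT, smul_zero]
    have eadd : (n + 1 + 1) • T = (n + 1) • T + T := succ_nsmul T (n + 1)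
    have esub : (n + 1) • T - T = n • T := by rw [succ_nsmul T n, add_sub_cancel_right]
    by_cases hP0 : (n + 1) • T = 0
    · -- `(n+1)T = 0`
      rw [hP0, comp_zero] at ih1
      rw [eadd, hP0, zero_add]
      exact PM.step_zero ih1
    by_cases hx : xOf ((n + 1) • T) = xOf T
    · have hdbl := table_dbl_cls V h2 h2u hb₂ hb₄ hb₆ hδ0 hμ hγ0 hγ hp hT0 hT
      rcases eq_or_eq_neg_of_xOf_eq hP0 hT0 hx with hPT | hPT
      · -- `(n+1)T = T`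
        have hn0 : n • T = 0 := by rw [← esub, hPT, sub_self]
        rw [hn0, comp_zero] at ih0
        rw [eadd, hPT]
        exact PM.step_eq ih0 hdbl
      · -- `(n+1)T = -T`
        have hn0 : n • T = -(T + T) := by rw [← esub, hPT]; abel
        rw [hn0, comp_neg] at ih0
        rw [hPT, comp_neg] at ih1
        rw [eadd, hPT, neg_add_cancel, comp_zero]
        exact PM.step_neg ih0 ih1 hdbl
    · have htab := table_generic_cls V h2 h2u hb₂ hb₄ hb₆ hδ0 hμ hγ0 hγ hp hP0 hT0 hPp hT hx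
      rw [esub] at htab
      rw [eadd]
      exact PM.step_generic ih0 ih1 htab

end main

end iota

end Fermat.Agent.S05.Iota

namespace Fermat.Agent.S05

open WeierstrassCurve WeierstrassCurve.Affine

variable {K : Type*} [Field K] [DecidableEq K] {G : Type*} [AddCommGroup G] [LinearOrder G]
  [IsOrderedAddMonoid G]

theorem iota_torsion (V : OrdData K G) (W : Affine K) (h2 : (2 : K) ≠ 0) (h2u : V.ord (2 : K) = 0)
    (ε₁ ε₂ ε₃ : K) (hb₂ : W.b₂ = -4 * (ε₁ + ε₂ + ε₃))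
    (hb₄ : W.b₄ = 2 * (ε₁ * ε₂ + ε₁ * ε₃ + ε₂ * ε₃)) (hb₆ : W.b₆ = -4 * (ε₁ * ε₂ * ε₃))
    (hδ0 : ε₁ - ε₂ ≠ 0) (hμ : 0 < V.ord (ε₁ - ε₂)) (hγ0 : ε₁ - ε₃ ≠ 0) (hγ : V.ord (ε₁ - ε₃) = 0)
    (p : ℕ) (hp : Odd p) (T : W.Point) (hT0 : T ≠ 0) (hT : p • T = 0) :
    xOf T - ε₁ ≠ 0 ∧ ∃ k : ℤ, p • clamp (V.ord (ε₁ - ε₂)) (V.ord (xOf T - ε₁)) =
      k • (2 • V.ord (ε₁ - ε₂)) := by
  refine ⟨Iota.u_ne_zero hb₂ hb₄ hb₆ hp hT0 hT, ?_⟩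
  have h := (Iota.multiples V h2 h2u hb₂ hb₄ hb₆ hδ0 hμ hγ0 hγ hp T hT0 hT p).1
  rw [hT, Iota.comp_zero, Iota.comp_of_ne_zero V ε₁ ε₂ hT0] at h
  have h' := h.zero_left
  have h'' : Iota.cls (V.ord (ε₁ - ε₂))
      (p • clamp (V.ord (ε₁ - ε₂)) (V.ord (xOf T - ε₁))) = 0 := h'
  rw [Iota.cls, QuotientAddGroup.eq_zero_iff, AddSubgroup.mem_zmultiples_iff] at h''
  obtain ⟨k, hk⟩ := h''
  exact ⟨k, hk.symm⟩

end Fermat.Agent.S05
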