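import Fermat.Agent.S05.EOne
import Fermat.Agent.S05.Iota

set_option autoImplicit false

namespace Fermat.Agent.S05

open WeierstrassCurve WeierstrassCurve.Affine OrdData

variable {K : Type*} [Field K] {G : Type*} [AddCommGroup G] [LinearOrder G]
  [IsOrderedAddMonoid G]

namespace CoreAux

lemma ge_of_sq (V : OrdData K G) {Y : K} (h : V.Ge (Y ^ 2) 0) : V.Ge Y 0 := by
  by_cases hY : Y = 0
  · exact Or.inl hY
  right
  have h1 := h.le (pow_ne_zero 2 hY)
  rw [V.ord_pow hY] at h1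
  grind

lemma zsmul_eq_zero_imp {n : ℤ} {a : G} (ha : 0 < a) (h : n • a = 0) : n = 0 := by
  rcases lt_trichotomy n 0 with h1 | h1 | h1
  · have : n • a < 0 := by
      have h2 : 0 < (-n) • a := zsmul_pos ha (by omega)
      rw [neg_zsmul] at h2
      exact neg_pos.mp h2
    rw [h] at this
    exact absurd this (lt_irrefl _)
  · exact h1
  · have : 0 < n • a := zsmul_pos ha h1
    rw [h] at this
    exact absurd this (lt_irrefl _)

lemma eq_zero_of_two_of_odd {M : Type*} [AddCommGroup M] {T : M} {p : ℕ} (hp : Odd p)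
    (h2 : T + T = 0) (hpT : p • T = 0) : T = 0 := by
  obtain ⟨m, rfl⟩ := hp
  have h3 : (2 * m) • T = 0 := by
    rw [mul_comm, mul_nsmul', two_nsmul, h2, nsmul_zero]
  rw [add_nsmul, h3, zero_add, one_nsmul] at hpT
  exact hpT

variable [DecidableEq K]

/-- If the slope of the chord through two integral points has negative order, the difference
of the points lies in the kernel of reduction (and is nonzero). -/
theorem sub_mem_E1 (V : OrdData K G) (W : Affine K) (ha₁ : V.Ge W.a₁ 0) (ha₂ : V.Ge W.a₂ 0)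
    {x y x' y' : K} (h : W.Nonsingular x y) (h' : W.Nonsingular x' y')
    (hx : V.Ge x 0) (hx' : V.Ge x' 0) (hne : x ≠ x') (hnum : y - W.negY x' y' ≠ 0)
    (hlt : V.ord (y - W.negY x' y') < V.ord (x - x')) :
    Point.some x y h - Point.some x' y' h' ≠ 0 ∧
      inE1 V (Point.some x y h - Point.some x' y' h') := by
  rw [sub_eq_add_neg, Point.neg_some, Point.add_of_X_ne hne]
  refine ⟨Point.some_ne_zero _, Or.inr ?_⟩
  simp only [xOf_some]
  rw [slope_of_X_ne hne]
  have hden : x - x' ≠ 0 := sub_ne_zero.mpr hne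
  obtain ⟨ℓ, hℓ⟩ : ∃ ℓ, ℓ = (y - W.negY x' y') / (x - x') := ⟨_, rfl⟩
  rw [← hℓ]
  have hℓ0 : ℓ ≠ 0 := by rw [hℓ]; exact div_ne_zero hnum hden
  have hℓord : V.ord ℓ < 0 := by
    rw [hℓ, V.ord_div hnum hden]; grind
  have e : W.addX x x' ℓ = ℓ ^ 2 + (W.a₁ * ℓ - W.a₂ - x - x') := by
    simp only [addX]; ring
  rw [e]
  have hsq : V.ord (ℓ ^ 2) = 2 • V.ord ℓ := V.ord_pow hℓ0 2
  have hrest : V.Gt (W.a₁ * ℓ - W.a₂ - x - x') (V.ord (ℓ ^ 2)) := by
    rw [hsq]
    have g0 : (2 • V.ord ℓ) < 0 := by grind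
    have g1 : (2 • V.ord ℓ) < V.ord ℓ := by grind
    refine Gt.sub (Gt.sub (Gt.sub ?_ ?_) ?_) ?_
    · exact (Ge.mul_left0 ha₁ (ge_of_ne hℓ0 le_rfl)).gt_of_lt g1
    · exact ha₂.gt_of_lt g0
    · exact hx.gt_of_lt g0
    · exact hx'.gt_of_lt g0
  obtain ⟨h1, h2⟩ := ord_add_eq (V := V) (pow_ne_zero 2 hℓ0) hrest
  refine ⟨h1, ?_⟩
  rw [h2, hsq]; grind

end CoreAux


variable [DecidableEq K]

open CoreAux in
/-- Core statement over the big field: a ring endomorphism acting trivially on the residue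
field fixes the coordinates of every `p`-torsion point. -/
theorem core_K (V : OrdData K G) (W : Affine K)
    (h2 : (2 : K) ≠ 0) (h2u : V.ord (2 : K) = 0)
    (p : ℕ) (hp : p.Prime) (hp2 : p ≠ 2) (hp0 : (p : K) ≠ 0) (hpu : V.ord (p : K) = 0)
    (ha₁ : V.Ge W.a₁ 0) (ha₂ : V.Ge W.a₂ 0) (ha₃ : V.Ge W.a₃ 0) (ha₄ : V.Ge W.a₄ 0)
    (ha₆ : V.Ge W.a₆ 0)
    (ε₁ ε₂ ε₃ ω : K)
    (hb₂ : W.b₂ = -4 * (ε₁ + ε₂ + ε₃)) (hb₄ : W.b₄ = 2 * (ε₁ * ε₂ + ε₁ * ε₃ + ε₂ * ε₃))
    (hb₆ : W.b₆ = -4 * (ε₁ * ε₂ * ε₃))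
    (hε₁ : V.Ge ε₁ 0) (hε₂ : V.Ge ε₂ 0) (hε₃ : V.Ge ε₃ 0)
    (hγ0 : ε₁ - ε₃ ≠ 0) (hγ : V.ord (ε₁ - ε₃) = 0)
    (h230 : ε₂ - ε₃ ≠ 0) (h23 : V.ord (ε₂ - ε₃) = 0)
    (hδ0 : ε₁ - ε₂ ≠ 0) (hω0 : ω ≠ 0) (hδ : V.ord (ε₁ - ε₂) = p • V.ord ω)
    (σ : K →+* K) (hσ : ∀ a : K, V.Ge a 0 → V.Gt (σ a - a) 0)
    (hσ₁ : σ W.a₁ = W.a₁) (hσ₃ : σ W.a₃ = W.a₃) (hσε : σ ε₁ = ε₁) (hσω : σ ω = ω)
    {x y : K} (h : W.Nonsingular x y) (hT : p • Point.some x y h = 0)
    (h' : W.Nonsingular (σ x) (σ y)) (hT' : p • Point.some (σ x) (σ y) h' = 0) :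
    σ x = x ∧ σ y = y := by
  -- integrality of the b-invariants
  have hB₂ : V.Ge W.b₂ 0 := by
    simp only [WeierstrassCurve.b₂]
    exact (ha₁.pow0 2).add ((Ge.ofNat 4).mul0 ha₂)
  have hB₄ : V.Ge W.b₄ 0 := by
    simp only [WeierstrassCurve.b₄]
    exact ((Ge.ofNat 2).mul0 ha₄).add (ha₁.mul0 ha₃)
  have hB₆ : V.Ge W.b₆ 0 := by
    simp only [WeierstrassCurve.b₆]
    exact (ha₃.pow0 2).add ((Ge.ofNat 4).mul0 ha₆)
  have hB₈ : V.Ge W.b₈ 0 := by
    simp only [WeierstrassCurve.b₈]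
    exact ((((ha₁.pow0 2).mul0 ha₆).add (((Ge.ofNat 4).mul0 ha₂).mul0 ha₆)).sub
      ((ha₁.mul0 ha₃).mul0 ha₄)).add (ha₂.mul0 (ha₃.pow0 2)) |>.sub (ha₄.pow0 2)
  have hodd : Odd p := hp.odd_of_ne_two hp2
  have hT0 : Point.some x y h ≠ 0 := Point.some_ne_zero h
  -- the kernel of reduction has no p-torsion
  have tf : ∀ S : W.Point, inE1 V S → p • S = 0 → S = 0 := fun S hS hpS =>
    E1_torsion h2 h2u hB₂ hB₄ hB₆ hB₈ S hS p hp0 hpu hpS
  -- x is integral
  have hx : V.Ge x 0 := by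
    by_contra hcon
    have hx0 : x ≠ 0 := fun h0 => hcon (Or.inl h0)
    have hxneg : V.ord x < 0 := by
      by_contra h1
      exact hcon (Or.inr (not_lt.mp h1))
    exact hT0 (tf _ (Or.inr ⟨hx0, hxneg⟩) hT)
  obtain ⟨h40, h4u⟩ := ord_four h2 h2u
  -- notation
  obtain ⟨u, hu⟩ : ∃ u, u = x - ε₁ := ⟨_, rfl⟩
  obtain ⟨δ, hδdef⟩ : ∃ δ, δ = ε₁ - ε₂ := ⟨_, rfl⟩
  obtain ⟨γ, hγdef⟩ : ∃ γ, γ = ε₁ - ε₃ := ⟨_, rfl⟩
  obtain ⟨Y, hY⟩ : ∃ Y, Y = y - W.negY x y := ⟨_, rfl⟩
  rw [← hδdef] at hδ0 hδ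
  rw [← hγdef] at hγ0 hγ
  have hδint : V.Ge δ 0 := by rw [hδdef]; exact hε₁.sub hε₂
  have hγint : V.Ge γ 0 := by rw [hγdef]; exact hε₁.sub hε₃
  have huint : V.Ge u 0 := by rw [hu]; exact hx.sub hε₁
  have hpsi : psiSq W x = 4 * u * (u + δ) * (u + γ) := by
    simp only [psiSq, hb₂, hb₄, hb₆, hu, hδdef, hγdef]; ring
  have hY2 : Y ^ 2 = 4 * u * (u + δ) * (u + γ) := by
    rw [hY, psi_sq_eq h.1, hpsi]
  have hYint : V.Ge Y 0 := by
    apply ge_of_sq
    rw [hY2]
    exact (((Ge.ofNat 4).mul0 huint).mul0 (huint.add hδint)).mul0 (huint.add hγint)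
  have hYexp : Y = 2 * y + W.a₁ * x + W.a₃ := by
    rw [hY]; simp only [negY]; ring
  have hy : V.Ge y 0 := by
    have e : y = (Y - W.a₁ * x - W.a₃) / 2 := by
      rw [hYexp]; field_simp; ring
    rw [e]
    exact Ge.div_unit ((hYint.sub (ha₁.mul0 hx)).sub ha₃) h2 h2u
  -- the action of σ
  have gx : V.Gt (σ x - x) 0 := hσ x hx
  have gy : V.Gt (σ y - y) 0 := hσ y hy
  have hx' : V.Ge (σ x) 0 := by
    have : σ x = x + (σ x - x) := by ring
    rw [this]; exact hx.add gx.ge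
  have hσY : σ Y = σ y - W.negY (σ x) (σ y) := by
    rw [hYexp]
    simp only [negY, map_add, map_mul, hσ₁, hσ₃, map_ofNat]
    ring
  -- the final contradiction: a difference of two p-torsion points cannot be a nonzero
  -- element of the kernel of reduction
  have fin : σ x ≠ x → y - W.negY (σ x) (σ y) ≠ 0 →
      V.ord (y - W.negY (σ x) (σ y)) < V.ord (x - σ x) → False := by
    intro hne hnum hlt
    obtain ⟨hD0, hD1⟩ := sub_mem_E1 V W ha₁ ha₂ h h' hx hx' (Ne.symm hne) hnum hlt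
    apply hD0
    apply tf _ hD1
    rw [smul_sub, hT, hT', sub_zero]
  have hnumexp : y - W.negY (σ x) (σ y) = Y + (σ y - y) + W.a₁ * (σ x - x) := by
    rw [hYexp]; simp only [negY]; ring
  by_cases hYu : Y ≠ 0 ∧ V.ord Y = 0
  · -- the two-division function is a unit at T
    obtain ⟨hY0, hYord⟩ := hYu
    by_cases hxx : σ x = x
    · refine ⟨hxx, ?_⟩
      rcases Y_eq_of_X_eq h.1 h'.1 hxx.symm with hyy | hyy
      · exact hyy.symm
      · exfalso
        have e : σ y - y = -Y := by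
          rw [hYexp]
          simp only [negY] at hyy
          rw [hxx] at hyy
          linear_combination hyy
        rw [e] at gy
        have := gy.neg.lt (by simpa using hY0)
        rw [neg_neg, hYord] at this
        exact lt_irrefl _ this
    · exfalso
      have hnum : y - W.negY (σ x) (σ y) ≠ 0 ∧ V.ord (y - W.negY (σ x) (σ y)) = 0 := by
        rw [hnumexp, add_assoc]
        exact unit_add hY0 hYord (gy.add (Gt.mul_left0 ha₁ gx))
      have hden : x - σ x ≠ 0 := sub_ne_zero.mpr (Ne.symm hxx)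
      have hdeng : V.Gt (x - σ x) 0 := by
        have : x - σ x = -(σ x - x) := by ring
        rw [this]; exact gx.neg
      exact fin hxx hnum.1 (by rw [hnum.2]; exact hdeng.lt hden)
  · -- the two-division function is not a unit at T
    have hY0 : Y ≠ 0 := by
      intro hY0
      have hps : psiSq W x = 0 := by rw [← psi_sq_eq h.1, ← hY, hY0]; ring
      exact hT0 (eq_zero_of_two_of_odd hodd (dbl_zero h hps) hT)
    have hYpos : 0 < V.ord Y := by
      have h1 := hYint.le hY0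
      rcases lt_or_eq_of_le h1 with h2 | h2
      · exact h2
      · exact absurd ⟨hY0, h2.symm⟩ hYu
    have hps0 : psiSq W x ≠ 0 := by rw [← psi_sq_eq h.1, ← hY]; exact pow_ne_zero 2 hY0
    -- Step A: u² - δγ is not a unit
    have hnuint : V.Ge (u ^ 2 - δ * γ) 0 := (huint.pow0 2).sub (hδint.mul0 hγint)
    have hnu : V.Gt (u ^ 2 - δ * γ) 0 := by
      by_contra hcon
      have hne0 : u ^ 2 - δ * γ ≠ 0 := fun h0 => hcon (Or.inl h0)
      have hord0 : V.ord (u ^ 2 - δ * γ) = 0 := by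
        have h1 := hnuint.le hne0
        rcases lt_or_eq_of_le h1 with h2 | h2
        · exact absurd (Or.inr h2) hcon
        · exact h2.symm
      obtain ⟨hTT0, hform⟩ := dbl_formula h2 h hps0
      have hrel := W.b_relation
      have hb₈ : 4 * W.b₈ = W.b₂ * W.b₆ - W.b₄ ^ 2 := hrel
      have key : (xOf (Point.some x y h + Point.some x y h) - ε₁) * Y ^ 2 =
          (u ^ 2 - δ * γ) ^ 2 := by
        have e1 : (xOf (Point.some x y h + Point.some x y h) - ε₁) * psiSq W x =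
            dblNum W x - ε₁ * psiSq W x := by rw [← hform]; ring
        rw [hY, psi_sq_eq h.1, e1]
        apply mul_left_cancel₀ h40
        simp only [dblNum, psiSq, hu, hδdef, hγdef]
        rw [hb₂, hb₄, hb₆] at hb₈ ⊢
        linear_combination (-1 : K) * hb₈
      have hv0 : xOf (Point.some x y h + Point.some x y h) - ε₁ ≠ 0 := by
        intro h0; rw [h0, zero_mul] at key
        exact pow_ne_zero 2 hne0 key.symm
      have hvord : V.ord (xOf (Point.some x y h + Point.some x y h) - ε₁) + 2 • V.ord Y = 0 := by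
        have := congrArg V.ord key
        rw [V.ord_mul _ _ hv0 (pow_ne_zero 2 hY0), V.ord_pow hY0, V.ord_pow hne0, hord0,
          smul_zero] at this
        exact this
      have hvneg : V.ord (xOf (Point.some x y h + Point.some x y h) - ε₁) < 0 := by grind
      have hxTT := ord_add_eq (V := V) hv0 (y := ε₁) (hε₁.gt_of_lt hvneg)
      rw [sub_add_cancel] at hxTT
      have hE1 : inE1 V (Point.some x y h + Point.some x y h) :=
        Or.inr ⟨hxTT.1, by rw [hxTT.2]; exact hvneg⟩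
      have hpTT : p • (Point.some x y h + Point.some x y h) = 0 := by
        rw [smul_add, hT, add_zero]
      exact hTT0 (tf _ hE1 hpTT)
    -- Step B
    have hprod0 : 4 * u * (u + δ) * (u + γ) ≠ 0 := by rw [← hY2]; exact pow_ne_zero 2 hY0
    have hu0 : u ≠ 0 := by
      intro h0; apply hprod0; rw [h0]; ring
    have huδ0 : u + δ ≠ 0 := by
      intro h0; apply hprod0; rw [h0]; ring
    have huγ0 : u + γ ≠ 0 := by
      intro h0; apply hprod0; rw [h0]; ring
    have hsum : V.ord u + V.ord (u + δ) + V.ord (u + γ) = 2 • V.ord Y := by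
      have := congrArg V.ord hY2
      rw [V.ord_pow hY0, V.ord_mul _ _ (mul_ne_zero (mul_ne_zero h40 hu0) huδ0) huγ0,
        V.ord_mul _ _ (mul_ne_zero h40 hu0) huδ0, V.ord_mul _ _ h40 hu0, h4u, zero_add] at this
      exact this.symm
    have hu_ge : 0 ≤ V.ord u := huint.le hu0
    have huδ_ge : 0 ≤ V.ord (u + δ) := (huint.add hδint).le huδ0
    have huγ_ge : 0 ≤ V.ord (u + γ) := (huint.add hγint).le huγ0
    have hnu0 : u ^ 2 - δ * γ ≠ 0 → 0 < V.ord (u ^ 2 - δ * γ) := fun h0 => hnu.lt h0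
    -- Step C
    have hγδ0 : γ - δ ≠ 0 := by
      have : γ - δ = ε₂ - ε₃ := by rw [hγdef, hδdef]; ring
      rw [this]; exact h230
    have hγδ : V.ord (γ - δ) = 0 := by
      have : γ - δ = ε₂ - ε₃ := by rw [hγdef, hδdef]; ring
      rw [this]; exact h23
    have huγ_unit : V.ord (u + γ) = 0 := by
      by_contra hcon
      have hpos : 0 < V.ord (u + γ) := lt_of_le_of_ne huγ_ge (Ne.symm hcon)
      have e : u ^ 2 - δ * γ = γ * (γ - δ) + (u + γ) * (u - γ) := by ring
      have h1 : γ * (γ - δ) ≠ 0 := mul_ne_zero hγ0 hγδ0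
      have h2' : V.ord (γ * (γ - δ)) = 0 := by rw [V.ord_mul _ _ hγ0 hγδ0, hγ, hγδ, add_zero]
      have h3 := unit_add (V := V) h1 h2'
        (y := (u + γ) * (u - γ)) (Gt.mul_right0 (gt_of_ne huγ0 hpos) (huint.sub hγint))
      rw [← e] at h3
      have := hnu0 h3.1
      rw [h3.2] at this
      exact lt_irrefl _ this
    have hu_pos : 0 < V.ord u := by
      by_contra hcon
      have hu_zero : V.ord u = 0 := le_antisymm (not_lt.mp hcon) hu_ge
      have hpos : 0 < V.ord (u + δ) := by grind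
      have e : δ * (δ - γ) = (u ^ 2 - δ * γ) - (u + δ) * (u - δ) := by ring
      have hg : V.Gt (δ * (δ - γ)) 0 := by
        rw [e]
        exact hnu.sub (Gt.mul_right0 (gt_of_ne huδ0 hpos) (huint.sub hδint))
      have hδγ0 : δ - γ ≠ 0 := by
        intro h0; apply hγδ0; rw [← neg_sub, h0, neg_zero]
      have hδγ : V.ord (δ - γ) = 0 := by rw [← neg_sub, V.ord_neg, hγδ]
      have hδpos : 0 < V.ord δ := by
        have := hg.lt (mul_ne_zero hδ0 hδγ0)
        rwa [V.ord_mul _ _ hδ0 hδγ0, hδγ, add_zero] at this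
      have hug : V.Gt u 0 := by
        have : u = (u + δ) - δ := by ring
        rw [this]
        exact (gt_of_ne huδ0 hpos).sub (gt_of_ne hδ0 hδpos)
      have := hug.lt hu0
      rw [hu_zero] at this
      exact lt_irrefl _ this
    have hμ : 0 < V.ord δ := by
      have e : δ * γ = u ^ 2 - (u ^ 2 - δ * γ) := by ring
      have hg : V.Gt (δ * γ) 0 := by
        rw [e]
        refine Gt.sub ?_ hnu
        have := Gt.mul_right0 (gt_of_ne hu0 hu_pos) huint
        simpa [pow_two] using this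
      have := hg.lt (mul_ne_zero hδ0 hγ0)
      rwa [V.ord_mul _ _ hδ0 hγ0, hγ, add_zero] at this
    -- Step D: the component map
    obtain ⟨-, k, hk⟩ := iota_torsion V W h2 h2u ε₁ ε₂ ε₃ hb₂ hb₄ hb₆
      (by rw [← hδdef]; exact hδ0) (by rw [← hδdef]; exact hμ)
      (by rw [← hγdef]; exact hγ0) (by rw [← hγdef]; exact hγ) p hodd _ hT0 hT
    simp only [xOf_some] at hk
    rw [← hδdef, ← hu] at hk
    -- Step E
    by_cases hmid : V.ord δ ≤ V.ord u
    · exfalso
      have hcl : clamp (V.ord δ) (V.ord u) = V.ord δ := by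
        simp only [clamp]; grind
      rw [hcl] at hk
      have h1 : ((p : ℤ) - 2 * k) • V.ord δ = 0 := by
        have e2 : (2 : ℕ) • V.ord δ = (2 : ℤ) • V.ord δ := (natCast_zsmul _ 2).symm
        have ep : (p : ℕ) • V.ord δ = (p : ℤ) • V.ord δ := (natCast_zsmul _ p).symm
        rw [e2, ep] at hk
        rw [sub_smul, hk, smul_smul, mul_comm, sub_self]
      have h2' := zsmul_eq_zero_imp hμ h1
      obtain ⟨m, hm⟩ := hodd
      omega
    · have hlt : V.ord u < V.ord δ := not_le.mp hmid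
      have hcl : clamp (V.ord δ) (V.ord u) = V.ord u := by
        simp only [clamp]; grind
      rw [hcl, hδ] at hk
      have hi : V.ord u = (2 * k) • V.ord ω := by
        have h1 : p • (V.ord u - (2 * k) • V.ord ω) = 0 := by
          have e2 : ∀ g : G, (2 : ℕ) • g = (2 : ℤ) • g := fun g => (natCast_zsmul _ 2).symm
          have ep : ∀ g : G, (p : ℕ) • g = (p : ℤ) • g := fun g => (natCast_zsmul _ p).symm
          rw [e2, ep, ep] at hk
          rw [ep, smul_sub, hk, smul_smul, smul_smul, smul_smul, sub_eq_zero]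
          congr 1
          ring
        have := nsmul_eq_zero_imp hp.ne_zero h1
        exact sub_eq_zero.mp this
      obtain ⟨c, hc⟩ : ∃ c, c = ω ^ (2 * k) := ⟨_, rfl⟩
      have hc0 : c ≠ 0 := by rw [hc]; exact zpow_ne_zero _ hω0
      have hcord : V.ord c = V.ord u := by rw [hc, V.ord_zpow hω0, hi]
      have hσc : σ c = c := by rw [hc, map_zpow₀, hσω]
      have huδ_ord : V.ord (u + δ) = V.ord u :=
        (ord_add_eq (V := V) hu0 (gt_of_ne hδ0 hlt)).2
      have hYord : V.ord Y = V.ord u := by grind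
      -- the units ξ = u / c and η = Y / c
      have hξ : V.Ge (u / c) 0 := by
        right; rw [V.ord_div hu0 hc0, hcord, sub_self]
      have hη : V.Ge (Y / c) 0 := by
        right; rw [V.ord_div hY0 hc0, hcord, hYord, sub_self]
      have gξ := hσ _ hξ
      have gη := hσ _ hη
      have hcge : V.Ge c (V.ord u) := ge_of_ne hc0 (le_of_eq hcord.symm)
      have gu : V.Gt (σ x - x) (V.ord u) := by
        have e : σ x - x = c * (σ (u / c) - u / c) := by
          rw [map_div₀, hσc, hu, map_sub, hσε]; field_simp; ring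
        rw [e]
        have := hcge.mul_gt gξ
        rwa [add_zero] at this
      have gY : V.Gt (σ Y - Y) (V.ord u) := by
        have e : σ Y - Y = c * (σ (Y / c) - Y / c) := by
          rw [map_div₀, hσc]; field_simp
        rw [e]
        have := hcge.mul_gt gη
        rwa [add_zero] at this
      have h2Y : (2 : K) * Y ≠ 0 ∧ V.ord (2 * Y) = V.ord u := by
        refine ⟨mul_ne_zero h2 hY0, ?_⟩
        rw [V.ord_mul _ _ h2 hY0, h2u, zero_add, hYord]
      by_cases hxx : σ x = x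
      · refine ⟨hxx, ?_⟩
        rcases Y_eq_of_X_eq h.1 h'.1 hxx.symm with hyy | hyy
        · exact hyy.symm
        · exfalso
          have e : σ Y - Y = -(2 * Y) := by
            rw [hσY, hYexp]
            simp only [negY] at hyy ⊢
            rw [hxx] at hyy ⊢
            linear_combination (2 : K) * hyy
          rw [e] at gY
          have := gY.neg.lt (by simpa using h2Y.1)
          rw [neg_neg, h2Y.2] at this
          exact lt_irrefl _ this
      · exfalso
        have e2 : 2 * (y - W.negY (σ x) (σ y)) = 2 * Y + ((σ Y - Y) + W.a₁ * (σ x - x)) := by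
          rw [hσY, hYexp]; simp only [negY]; ring
        have h3 := ord_add_eq (V := V) h2Y.1 (y := (σ Y - Y) + W.a₁ * (σ x - x))
          (by rw [h2Y.2]; exact gY.add (Gt.mul_left0 ha₁ gu))
        rw [← e2] at h3
        have hnum0 : y - W.negY (σ x) (σ y) ≠ 0 := right_ne_zero_of_mul h3.1
        have hnumord : V.ord (y - W.negY (σ x) (σ y)) = V.ord u := by
          have := h3.2
          rwa [V.ord_mul _ _ h2 hnum0, h2u, zero_add, h2Y.2] at this
        have hden : x - σ x ≠ 0 := sub_ne_zero.mpr (Ne.symm hxx)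
        have hdeng : V.Gt (x - σ x) (V.ord u) := by
          have : x - σ x = -(σ x - x) := by ring
          rw [this]; exact gu.neg
        exact fin hxx hnum0 (by rw [hnumord]; exact hdeng.lt hden)


/-- Core theorem: an algebra endomorphism of the big field acting trivially on the residue
field of the valuation fixes every `p`-torsion point of a Weierstrass curve whose two-division
polynomial splits with the stated integrality and unit conditions. -/
theorem core {F K : Type*} [Field F] [Field K] [DecidableEq K] [Algebra F K]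
    {G : Type*} [AddCommGroup G] [LinearOrder G] [IsOrderedAddMonoid G] (V : OrdData K G)
    (W' : Affine F) (σ : K →ₐ[F] K)
    (hσ : ∀ a : K, V.Ge a 0 → V.Gt (σ a - a) 0)
    (h2 : (2 : K) ≠ 0) (h2u : V.ord (2 : K) = 0)
    (p : ℕ) (hp : p.Prime) (hp2 : p ≠ 2) (hp0 : (p : K) ≠ 0) (hpu : V.ord (p : K) = 0)
    (ha₁ : V.Ge (algebraMap F K W'.a₁) 0) (ha₂ : V.Ge (algebraMap F K W'.a₂) 0)
    (ha₃ : V.Ge (algebraMap F K W'.a₃) 0) (ha₄ : V.Ge (algebraMap F K W'.a₄) 0)
    (ha₆ : V.Ge (algebraMap F K W'.a₆) 0)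
    (e₁ e₂ e₃ w : F)
    (hb₂ : W'.b₂ = -4 * (e₁ + e₂ + e₃)) (hb₄ : W'.b₄ = 2 * (e₁ * e₂ + e₁ * e₃ + e₂ * e₃))
    (hb₆ : W'.b₆ = -4 * (e₁ * e₂ * e₃))
    (he₁ : V.Ge (algebraMap F K e₁) 0) (he₂ : V.Ge (algebraMap F K e₂) 0)
    (he₃ : V.Ge (algebraMap F K e₃) 0)
    (hγ0 : algebraMap F K (e₁ - e₃) ≠ 0) (hγ : V.ord (algebraMap F K (e₁ - e₃)) = 0)
    (h230 : algebraMap F K (e₂ - e₃) ≠ 0) (h23 : V.ord (algebraMap F K (e₂ - e₃)) = 0)
    (hδ0 : algebraMap F K (e₁ - e₂) ≠ 0) (hw0 : algebraMap F K w ≠ 0)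
    (hδ : V.ord (algebraMap F K (e₁ - e₂)) = p • V.ord (algebraMap F K w))
    (T : (W'⁄K).Point) (hT : p • T = 0) :
    Point.map (W' := W') σ T = T := by
  rcases T with _ | ⟨x, y, h⟩
  · rfl
  · have h'' : (W'⁄K).Nonsingular (σ x) (σ y) :=
      (W'.baseChange_nonsingular σ.injective ..).mpr h
    have hmap : Point.map (W' := W') σ (Point.some x y h) = Point.some (σ x) (σ y) h'' := rfl
    have hT' : p • Point.some (σ x) (σ y) h'' = 0 := by
      rw [← hmap, ← map_nsmul, hT, map_zero]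
    rw [map_sub] at hγ0 hγ h230 h23 hδ0 hδ
    obtain ⟨e1, e2⟩ := core_K V (W'⁄K) h2 h2u p hp hp2 hp0 hpu
      (by simpa using ha₁) (by simpa using ha₂) (by simpa using ha₃) (by simpa using ha₄)
      (by simpa using ha₆)
      (algebraMap F K e₁) (algebraMap F K e₂) (algebraMap F K e₃) (algebraMap F K w)
      (by
        have e : (W'⁄K).b₂ = algebraMap F K W'.b₂ := WeierstrassCurve.map_b₂ W' (algebraMap F K)
        rw [e, hb₂]; simp only [map_neg, map_mul, map_add, map_ofNat])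
      (by
        have e : (W'⁄K).b₄ = algebraMap F K W'.b₄ := WeierstrassCurve.map_b₄ W' (algebraMap F K)
        rw [e, hb₄]; simp only [map_neg, map_mul, map_add, map_ofNat])
      (by
        have e : (W'⁄K).b₆ = algebraMap F K W'.b₆ := WeierstrassCurve.map_b₆ W' (algebraMap F K)
        rw [e, hb₆]; simp only [map_neg, map_mul, map_add, map_ofNat])
      he₁ he₂ he₃ hγ0 hγ h230 h23 hδ0 hw0 hδ
      (σ : K →+* K) hσ (by simp) (by simp) (by simp) (by simp) h hT h'' hT'
    rw [hmap]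
    simp only [RingHom.coe_coe] at e1 e2
    congr 1

end Fermat.Agent.S05
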