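import Fermat.Prelude.Def_FLTPrelim_FreyPackage
import Fermat.Agent.S05.Core

set_option autoImplicit false
open WeierstrassCurve WeierstrassCurve.Affine WeierstrassCurve.Affine.Point
open FreyPackage

namespace Fermat.Agent.S05.Assembly

open Fermat.Agent.S05 Fermat.Agent.S05.OrdData

section
variable {K : Type*} [Field K] [CharZero K] [Algebra ℚ K]

lemma algebraMap_quarter (m : ℤ) : algebraMap ℚ K ((m : ℚ) / 4) = (m : K) / 4 := by
  rw [eq_ratCast]; push_cast; rfl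

lemma algebraMap_quarter_sub (m n : ℤ) :
    algebraMap ℚ K ((m : ℚ) / 4 - (n : ℚ) / 4) = ((m - n : ℤ) : K) / 4 := by
  rw [eq_ratCast]; push_cast; ring

end

section
variable {K : Type*} [Field K]
  {G : Type*} [AddCommGroup G] [LinearOrder G] [IsOrderedAddMonoid G] {V : OrdData K G}

/-- Units: integers prime to `q` divided by four. -/
lemma quarter_unit {q : ℕ}
    (hU : ∀ n : ℤ, ¬ (q : ℤ) ∣ n → (n : K) ≠ 0 ∧ V.ord (n : K) = 0)
    (h4 : ¬ (q : ℤ) ∣ 4) {m : ℤ} (hm : ¬ (q : ℤ) ∣ m) :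
    (m : K) / 4 ≠ 0 ∧ V.ord ((m : K) / 4) = 0 := by
  obtain ⟨hm0, hmu⟩ := hU m hm
  obtain ⟨h40, h4u⟩ := hU 4 h4
  have e4 : ((4 : ℤ) : K) = 4 := by norm_num
  rw [e4] at h40 h4u
  refine ⟨div_ne_zero hm0 h40, ?_⟩
  rw [V.ord_div hm0 h40, hmu, h4u, sub_zero]

lemma quarter_ge {q : ℕ}
    (hU : ∀ n : ℤ, ¬ (q : ℤ) ∣ n → (n : K) ≠ 0 ∧ V.ord (n : K) = 0)
    (h4 : ¬ (q : ℤ) ∣ 4) (m : ℤ) : V.Ge ((m : K) / 4) 0 := by
  obtain ⟨h40, h4u⟩ := hU 4 h4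
  have e4 : ((4 : ℤ) : K) = 4 := by norm_num
  rw [e4] at h40 h4u
  exact Ge.div_unit (Ge.intCast m) h40 h4u

end

section
variable {K : Type*} [Field K] [CharZero K] [DecidableEq K] [Algebra ℚ K]
  {G : Type*} [AddCommGroup G] [LinearOrder G] [IsOrderedAddMonoid G]

theorem frey_apply (V : OrdData K G) (P : FreyPackage) {q : ℕ}
    (hU : ∀ n : ℤ, ¬ (q : ℤ) ∣ n → (n : K) ≠ 0 ∧ V.ord (n : K) = 0)
    (hq2 : ¬ (q : ℤ) ∣ 2) (h4 : ¬ (q : ℤ) ∣ 4) (hqp : ¬ (q : ℤ) ∣ (P.p : ℤ))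
    (σ : K →ₐ[ℚ] K) (hσ : ∀ a : K, V.Ge a 0 → V.Gt (σ a - a) 0)
    (x y z w ε : ℤ) (hε : ε = 1 ∨ ε = -1)
    (h1 : x + y + z = P.a ^ P.p - P.b ^ P.p)
    (h2 : x * y + x * z + y * z = -(P.a ^ P.p * P.b ^ P.p))
    (h3 : x * y * z = 0)
    (hxz : ¬ (q : ℤ) ∣ x - z) (hyz : ¬ (q : ℤ) ∣ y - z)
    (hxy : x - y = ε * w ^ P.p) (hw : w ≠ 0)
    (T : (P.freyCurve⁄K).Point) (hT : P.p • T = 0) :
    Point.map (W' := P.freyCurve) σ T = T := by
  obtain ⟨h20, h2u⟩ := hU 2 hq2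
  have e2 : ((2 : ℤ) : K) = 2 := by norm_num
  rw [e2] at h20 h2u
  obtain ⟨hp0, hpu⟩ := hU (P.p : ℤ) hqp
  rw [Int.cast_natCast] at hp0 hpu
  have hp2 : P.p ≠ 2 := by have := P.hp5; omega
  obtain ⟨h40, h4u⟩ := hU 4 h4
  have e4 : ((4 : ℤ) : K) = 4 := by norm_num
  rw [e4] at h40 h4u
  have h1' : (x:ℚ) + y + z = (P.a:ℚ) ^ P.p - (P.b:ℚ) ^ P.p := by exact_mod_cast h1
  have h2' : (x:ℚ) * y + x * z + y * z = -((P.a:ℚ) ^ P.p * (P.b:ℚ) ^ P.p) := by exact_mod_cast h2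
  have h3' : (x:ℚ) * y * z = 0 := by exact_mod_cast h3
  have hw0 : (w : K) ≠ 0 := by exact_mod_cast hw
  have hε0 : (ε : K) ≠ 0 ∧ V.ord (ε : K) = 0 := by
    rcases hε with rfl | rfl
    · simp [V.ord_one]
    · simp [V.ord_neg_one]
  refine core V P.freyCurve σ hσ h20 h2u P.p P.pp hp2 hp0 hpu ?_ ?_ ?_ ?_ ?_
    ((x : ℚ) / 4) ((y : ℚ) / 4) ((z : ℚ) / 4) (w : ℚ) ?_ ?_ ?_ ?_ ?_ ?_ ?_ ?_ ?_ ?_ ?_ ?_ ?_ T hT
  · -- a₁
    have : algebraMap ℚ K P.freyCurve.a₁ = 1 := by simp [freyCurve]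
    rw [this]; exact Ge.one
  · -- a₂
    have : algebraMap ℚ K P.freyCurve.a₂ = ((P.b ^ P.p - 1 - P.a ^ P.p : ℤ) : K) / 4 := by
      rw [← algebraMap_quarter]; congr 1; simp [freyCurve]
    rw [this]; exact quarter_ge hU h4 _
  · -- a₃
    have : algebraMap ℚ K P.freyCurve.a₃ = 0 := by simp [freyCurve]
    rw [this]; exact Ge.zero 0
  · -- a₄
    have : algebraMap ℚ K P.freyCurve.a₄ = ((-(P.a ^ P.p) * P.b ^ P.p : ℤ) : K) / 4 / 4 := by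
      rw [eq_ratCast]; simp [freyCurve]; ring
    rw [this]
    exact Ge.div_unit (quarter_ge hU h4 _) h40 h4u
  · -- a₆
    have : algebraMap ℚ K P.freyCurve.a₆ = 0 := by simp [freyCurve]
    rw [this]; exact Ge.zero 0
  · simp only [WeierstrassCurve.b₂, freyCurve]
    linear_combination h1'
  · simp only [WeierstrassCurve.b₄, freyCurve]
    linear_combination (-1/8:ℚ) * h2'
  · simp only [WeierstrassCurve.b₆, freyCurve]
    linear_combination (1/16:ℚ) * h3'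
  · rw [algebraMap_quarter]; exact quarter_ge hU h4 _
  · rw [algebraMap_quarter]; exact quarter_ge hU h4 _
  · rw [algebraMap_quarter]; exact quarter_ge hU h4 _
  · rw [algebraMap_quarter_sub]; exact (quarter_unit hU h4 hxz).1
  · rw [algebraMap_quarter_sub]; exact (quarter_unit hU h4 hxz).2
  · rw [algebraMap_quarter_sub]; exact (quarter_unit hU h4 hyz).1
  · rw [algebraMap_quarter_sub]; exact (quarter_unit hU h4 hyz).2
  · rw [algebraMap_quarter_sub, hxy]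
    exact div_ne_zero (by push_cast; exact mul_ne_zero hε0.1 (pow_ne_zero _ hw0)) h40
  · rw [eq_ratCast]; exact_mod_cast hw0
  · rw [algebraMap_quarter_sub, hxy, eq_ratCast]
    push_cast
    rw [V.ord_div (mul_ne_zero hε0.1 (pow_ne_zero _ hw0)) h40, h4u, sub_zero,
      V.ord_mul _ _ hε0.1 (pow_ne_zero _ hw0), hε0.2, zero_add, V.ord_pow hw0]

end

end Fermat.Agent.S05.Assembly
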