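import Mathlib
import Fermat.Prelude.Def_FLTPrelim_Ramification

set_option autoImplicit false

namespace Fermat.Agent.S05

open ValuationSubring

/-- Elements of the inertia subgroup move integral elements by non-units. -/
theorem inertia_sub_mem_nonunits {F K : Type*} [Field F] [Field K] [Algebra F K]
    (A : ValuationSubring K) (σ : K ≃ₐ[F] K) (hσ : σ ∈ A.inertiaSubgroupIn F)
    (a : K) (ha : a ∈ A) : σ a - a ∈ A.nonunits := by
  obtain ⟨τ, hτ, rfl⟩ := hσ
  have h1 : MulSemiringAction.toRingAut (A.decompositionSubgroup F)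
      (IsLocalRing.ResidueField A) τ = 1 := hτ
  have h2 : τ • IsLocalRing.residue A ⟨a, ha⟩ = IsLocalRing.residue A ⟨a, ha⟩ := by
    have := congrArg (fun f => f (IsLocalRing.residue A ⟨a, ha⟩)) h1
    simpa using this
  rw [← IsLocalRing.ResidueField.residue_smul] at h2
  have h3 : (τ • (⟨a, ha⟩ : A)) - ⟨a, ha⟩ ∈ IsLocalRing.maximalIdeal A := by
    rw [← Ideal.Quotient.eq]
    exact h2
  exact (ValuationSubring.coe_mem_nonunits_iff (A := A)).mpr h3

end Fermat.Agent.S05
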