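import Fermat.Agent.S05.Ord
import Mathlib

set_option autoImplicit false

namespace Fermat.Agent.S05

namespace OfSubring

variable {K : Type*} [Field K] (A : ValuationSubring K)

open Classical in
/-- the underlying function of `ordOfSubring` -/
noncomputable def ordFun (x : K) : Additive (A.ValueGroup)ˣ :=
  if hx : x = 0 then 0 else Additive.ofMul (Units.mk0 (A.valuation x) (by simpa using hx))⁻¹

lemma ordFun_of_ne {x : K} (hx : x ≠ 0) :
    ordFun A x = Additive.ofMul (Units.mk0 (A.valuation x) (by simpa using hx))⁻¹ := by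
  simp [ordFun, hx]

lemma ordFun_nonneg_iff {x : K} (hx : x ≠ 0) : 0 ≤ ordFun A x ↔ A.valuation x ≤ 1 := by
  rw [ordFun_of_ne A hx, ← ofMul_one, Additive.ofMul_le, one_le_inv', ← Units.val_le_val]
  simp

lemma ordFun_pos_iff {x : K} (hx : x ≠ 0) : 0 < ordFun A x ↔ A.valuation x < 1 := by
  rw [ordFun_of_ne A hx, ← ofMul_one, Additive.ofMul_lt, one_lt_inv', ← Units.val_lt_val]
  simp

lemma ordFun_eq_zero_iff {x : K} (hx : x ≠ 0) : ordFun A x = 0 ↔ A.valuation x = 1 := by
  rw [ordFun_of_ne A hx, ← ofMul_one, Additive.ofMul.apply_eq_iff_eq, inv_eq_one, Units.ext_iff]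
  simp

end OfSubring

open OfSubring

noncomputable def ordOfSubring {K : Type*} [Field K] (A : ValuationSubring K) :
    OrdData K (Additive (A.ValueGroup)ˣ) where
  ord := ordFun A
  ord_mul := by
    intro x y hx hy
    rw [ordFun_of_ne A hx, ordFun_of_ne A hy, ordFun_of_ne A (mul_ne_zero hx hy), ← ofMul_mul,
      ← mul_inv]
    congr 2
    ext
    simp
  ord_add := by
    intro x y hx hy hxy
    rw [ordFun_of_ne A hx, ordFun_of_ne A hy, ordFun_of_ne A hxy]
    have h := A.valuation.map_add x y
    rcases le_max_iff.mp h with h1 | h1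
    · refine le_trans (min_le_left _ _) ?_
      rw [Additive.ofMul_le, inv_le_inv_iff, ← Units.val_le_val]
      simpa using h1
    · refine le_trans (min_le_right _ _) ?_
      rw [Additive.ofMul_le, inv_le_inv_iff, ← Units.val_le_val]
      simpa using h1

theorem ordOfSubring_ge_iff {K : Type*} [Field K] (A : ValuationSubring K) (x : K) :
    (ordOfSubring A).Ge x 0 ↔ x ∈ A := by
  by_cases hx : x = 0
  · subst hx
    simp [OrdData.Ge, A.zero_mem]
  · have : (ordOfSubring A).Ge x 0 ↔ 0 ≤ ordFun A x := by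
      constructor
      · intro h; exact h.resolve_left hx
      · intro h; exact Or.inr h
    rw [this, ordFun_nonneg_iff A hx, A.valuation_le_one_iff]

theorem ordOfSubring_gt_iff {K : Type*} [Field K] (A : ValuationSubring K) (x : K) :
    (ordOfSubring A).Gt x 0 ↔ x ∈ A.nonunits := by
  by_cases hx : x = 0
  · subst hx
    simp [OrdData.Gt, A.nonunits.zero_mem]
  · have : (ordOfSubring A).Gt x 0 ↔ 0 < ordFun A x := by
      constructor
      · intro h; exact h.resolve_left hx
      · intro h; exact Or.inr h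
    rw [this, ordFun_pos_iff A hx, A.mem_nonunits_iff]

theorem ordOfSubring_intCast_unit {K : Type*} [Field K] [CharZero K] (A : ValuationSubring K)
    {q : ℕ} (hq : q.Prime) (hA : (q : K) ∈ A.nonunits) {n : ℤ} (hn : ¬ (q : ℤ) ∣ n) :
    (n : K) ≠ 0 ∧ (ordOfSubring A).ord (n : K) = 0 := by
  have hn0 : n ≠ 0 := by
    rintro rfl
    exact hn (dvd_zero _)
  have hnK : (n : K) ≠ 0 := by exact_mod_cast hn0
  refine ⟨hnK, ?_⟩
  change ordFun A (n : K) = 0
  rw [ordFun_eq_zero_iff A hnK]
  -- Bezout
  have hcop : IsCoprime (q : ℤ) n := by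
    have hqp : Prime (q : ℤ) := Nat.prime_iff_prime_int.mp hq
    exact (Prime.coprime_iff_not_dvd hqp).mpr hn
  obtain ⟨s, t, hst⟩ := hcop
  have hv_int : ∀ m : ℤ, A.valuation (m : K) ≤ 1 := fun m =>
    (A.valuation_le_one_iff _).mpr (intCast_mem A m)
  have hq1 : A.valuation (q : K) < 1 := A.mem_nonunits_iff.mp hA
  have hsq : A.valuation ((s : K) * (q : K)) < 1 := by
    rw [map_mul]
    calc A.valuation (s : K) * A.valuation (q : K) ≤ 1 * A.valuation (q : K) :=
          mul_le_mul_left (hv_int s) _
      _ = A.valuation (q : K) := one_mul _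
      _ < 1 := hq1
  have h1 : (t : K) * (n : K) = 1 - (s : K) * (q : K) := by
    have : ((s * (q : ℤ) + t * n : ℤ) : K) = 1 := by rw [hst]; simp
    push_cast at this
    linear_combination this
  have h2 : A.valuation ((t : K) * (n : K)) = 1 := by
    rw [h1]
    have := A.valuation.map_sub_eq_of_lt_left (x := (1 : K)) (y := (s : K) * (q : K))
      (by simpa using hsq)
    simpa using this
  rw [map_mul] at h2
  have ht1 := hv_int t
  have hn1 := hv_int n
  refine le_antisymm hn1 ?_
  calc (1 : A.ValueGroup) = A.valuation (t : K) * A.valuation (n : K) := h2.symm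
    _ ≤ 1 * A.valuation (n : K) := mul_le_mul_left ht1 _
    _ = A.valuation (n : K) := one_mul _

end Fermat.Agent.S05
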