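import Mathlib

set_option autoImplicit false

namespace Fermat.Agent.S05

open WeierstrassCurve WeierstrassCurve.Affine

variable {K : Type*} [Field K] {W : Affine K}

/-- The x-coordinate of a point (junk value `0` at the origin). -/
def xOf : W.Point → K
  | .zero => 0
  | .some x _ _ => x

@[simp] lemma xOf_zero : xOf (0 : W.Point) = 0 := rfl

@[simp] lemma xOf_some {x y : K} (h : W.Nonsingular x y) : xOf (Point.some x y h) = x := rfl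

@[simp] lemma xOf_neg (P : W.Point) : xOf (-P) = xOf P := by
  cases P <;> rfl

/-- The square of the two-division function. -/
def psiSq (W : Affine K) (x : K) : K := 4 * x ^ 3 + W.b₂ * x ^ 2 + 2 * W.b₄ * x + W.b₆

/-- The numerator of the duplication formula. -/
def dblNum (W : Affine K) (x : K) : K := x ^ 4 - W.b₄ * x ^ 2 - 2 * W.b₆ * x - W.b₈

/-- First Kummer biquadratic form. -/
def kumProd (W : Affine K) (x₁ x₂ : K) : K :=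
  x₁ ^ 2 * x₂ ^ 2 - W.b₄ * x₁ * x₂ - W.b₆ * (x₁ + x₂) - W.b₈

/-- Second Kummer biquadratic form. -/
def kumSum (W : Affine K) (x₁ x₂ : K) : K :=
  2 * x₁ * x₂ * (x₁ + x₂) + W.b₂ * x₁ * x₂ + W.b₄ * (x₁ + x₂) + W.b₆

lemma psi_sq_eq {x y : K} (h : W.Equation x y) :
    (y - W.negY x y) ^ 2 = psiSq W x := by
  rw [Affine.equation_iff] at h
  simp only [negY, psiSq, WeierstrassCurve.b₂, WeierstrassCurve.b₄, WeierstrassCurve.b₆]
  linear_combination 4 * h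

variable [DecidableEq K]

lemma addX_generic (x₁ x₂ y₁ y₂ : K) (hx : x₁ ≠ x₂) :
    4 * (x₁ - x₂) ^ 2 * W.addX x₁ x₂ (W.slope x₁ x₂ y₁ y₂) =
      ((y₁ - W.negY x₁ y₁) - (y₂ - W.negY x₂ y₂)) ^ 2 -
        (W.b₂ + 4 * x₁ + 4 * x₂) * (x₁ - x₂) ^ 2 := by
  have hx' : x₁ - x₂ ≠ 0 := sub_ne_zero.mpr hx
  rw [slope_of_X_ne hx]
  simp only [addX, negY, WeierstrassCurve.b₂]
  field_simp
  ring

lemma addX_dbl (x y : K) (hy : y ≠ W.negY x y) :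
    4 * (y - W.negY x y) ^ 2 * W.addX x x (W.slope x x y y) =
      (6 * x ^ 2 + W.b₂ * x + W.b₄) ^ 2 - (W.b₂ + 8 * x) * (y - W.negY x y) ^ 2 := by
  have hy' : y - W.negY x y ≠ 0 := sub_ne_zero.mpr hy
  rw [slope_of_Y_ne rfl hy]
  simp only [addX, WeierstrassCurve.b₂, WeierstrassCurve.b₄]
  field_simp
  simp only [negY]
  ring

omit [DecidableEq K] in
lemma kummer_aux (h2 : (2 : K) ≠ 0) {x₁ x₂ Y₁ Y₂ Xp Xm : K} (hx : x₁ ≠ x₂)
    (e1 : Y₁ ^ 2 = psiSq W x₁) (e2 : Y₂ ^ 2 = psiSq W x₂)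
    (hA : 4 * (x₁ - x₂) ^ 2 * Xp = (Y₁ - Y₂) ^ 2 - (W.b₂ + 4 * x₁ + 4 * x₂) * (x₁ - x₂) ^ 2)
    (hB : 4 * (x₁ - x₂) ^ 2 * Xm = (Y₁ + Y₂) ^ 2 - (W.b₂ + 4 * x₁ + 4 * x₂) * (x₁ - x₂) ^ 2) :
    (x₁ - x₂) ^ 2 * (Xp * Xm) = kumProd W x₁ x₂ ∧
    (x₁ - x₂) ^ 2 * (Xp + Xm) = kumSum W x₁ x₂ := by
  have hx' : x₁ - x₂ ≠ 0 := sub_ne_zero.mpr hx
  have h4 : (4 : K) ≠ 0 := by
    have : (4 : K) = 2 ^ 2 := by norm_num
    rw [this]; exact pow_ne_zero 2 h2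
  have h16 : (16 : K) * (x₁ - x₂) ^ 2 ≠ 0 := by
    refine mul_ne_zero ?_ (pow_ne_zero 2 hx')
    have : (16 : K) = 2 ^ 4 := by norm_num
    rw [this]; exact pow_ne_zero 4 h2
  constructor
  · apply mul_left_cancel₀ h16
    have key : (16 : K) * (x₁ - x₂) ^ 2 * ((x₁ - x₂) ^ 2 * (Xp * Xm)) =
        (Y₁ ^ 2 + Y₂ ^ 2 - (W.b₂ + 4 * x₁ + 4 * x₂) * (x₁ - x₂) ^ 2) ^ 2 -
          4 * Y₁ ^ 2 * Y₂ ^ 2 := by
      have : (16 : K) * (x₁ - x₂) ^ 2 * ((x₁ - x₂) ^ 2 * (Xp * Xm)) =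
          (4 * (x₁ - x₂) ^ 2 * Xp) * (4 * (x₁ - x₂) ^ 2 * Xm) := by ring
      rw [this, hA, hB]; ring
    rw [key, e1, e2]
    simp only [psiSq, kumProd, WeierstrassCurve.b₂, WeierstrassCurve.b₄, WeierstrassCurve.b₆,
      WeierstrassCurve.b₈]
    ring
  · apply mul_left_cancel₀ h4
    have key : (4 : K) * ((x₁ - x₂) ^ 2 * (Xp + Xm)) =
        2 * Y₁ ^ 2 + 2 * Y₂ ^ 2 - 2 * (W.b₂ + 4 * x₁ + 4 * x₂) * (x₁ - x₂) ^ 2 := by
      have : (4 : K) * ((x₁ - x₂) ^ 2 * (Xp + Xm)) =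
          (4 * (x₁ - x₂) ^ 2 * Xp) + (4 * (x₁ - x₂) ^ 2 * Xm) := by ring
      rw [this, hA, hB]; ring
    rw [key, e1, e2]
    simp only [psiSq, kumSum]
    ring

lemma kummer_generic (h2 : (2 : K) ≠ 0) {x₁ y₁ x₂ y₂ : K} (h₁ : W.Nonsingular x₁ y₁)
    (h₂ : W.Nonsingular x₂ y₂) (hx : x₁ ≠ x₂) :
    Point.some x₁ y₁ h₁ + Point.some x₂ y₂ h₂ ≠ 0 ∧
    Point.some x₁ y₁ h₁ - Point.some x₂ y₂ h₂ ≠ 0 ∧
    (x₁ - x₂) ^ 2 * (xOf (Point.some x₁ y₁ h₁ + Point.some x₂ y₂ h₂) *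
      xOf (Point.some x₁ y₁ h₁ - Point.some x₂ y₂ h₂)) = kumProd W x₁ x₂ ∧
    (x₁ - x₂) ^ 2 * (xOf (Point.some x₁ y₁ h₁ + Point.some x₂ y₂ h₂) +
      xOf (Point.some x₁ y₁ h₁ - Point.some x₂ y₂ h₂)) = kumSum W x₁ x₂ := by
  have e1 := psi_sq_eq h₁.1
  have e2 := psi_sq_eq h₂.1
  have hA := addX_generic (W := W) x₁ x₂ y₁ y₂ hx
  have hB := addX_generic (W := W) x₁ x₂ y₁ (W.negY x₂ y₂) hx
  rw [negY_negY] at hB
  have hB' : 4 * (x₁ - x₂) ^ 2 * W.addX x₁ x₂ (W.slope x₁ x₂ y₁ (W.negY x₂ y₂)) =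
      ((y₁ - W.negY x₁ y₁) + (y₂ - W.negY x₂ y₂)) ^ 2 -
      (W.b₂ + 4 * x₁ + 4 * x₂) * (x₁ - x₂) ^ 2 := by
    rw [hB]; ring
  rw [sub_eq_add_neg, Point.neg_some, Point.add_of_X_ne hx, Point.add_of_X_ne hx]
  refine ⟨Point.some_ne_zero _, Point.some_ne_zero _, ?_⟩
  simp only [xOf_some]
  exact kummer_aux h2 hx e1 e2 hA hB'

lemma dbl_formula (h2 : (2 : K) ≠ 0) {x y : K} (h : W.Nonsingular x y) (hpsi : psiSq W x ≠ 0) :
    Point.some x y h + Point.some x y h ≠ 0 ∧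
    xOf (Point.some x y h + Point.some x y h) * psiSq W x = dblNum W x := by
  have e := psi_sq_eq h.1
  have hy : y ≠ W.negY x y := by
    intro hy
    rw [sub_eq_zero.mpr hy] at e
    exact hpsi (by rw [← e]; ring)
  have hA := addX_dbl (W := W) x y hy
  rw [Point.add_self_of_Y_ne hy]
  refine ⟨Point.some_ne_zero _, ?_⟩
  simp only [xOf_some]
  have h4 : (4 : K) ≠ 0 := by
    have : (4 : K) = 2 ^ 2 := by norm_num
    rw [this]; exact pow_ne_zero 2 h2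
  apply mul_left_cancel₀ h4
  rw [e] at hA
  have : (4 : K) * (W.addX x x (W.slope x x y y) * psiSq W x) =
      4 * psiSq W x * W.addX x x (W.slope x x y y) := by ring
  rw [this, hA]
  simp only [psiSq, dblNum, WeierstrassCurve.b₂, WeierstrassCurve.b₄, WeierstrassCurve.b₆,
    WeierstrassCurve.b₈]
  ring

lemma dbl_zero {x y : K} (h : W.Nonsingular x y) (hpsi : psiSq W x = 0) :
    Point.some x y h + Point.some x y h = 0 := by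
  have e := psi_sq_eq h.1
  rw [hpsi] at e
  have hy : y = W.negY x y := sub_eq_zero.mp (pow_eq_zero_iff (two_ne_zero) |>.mp e)
  exact Point.add_self_of_Y_eq hy

end Fermat.Agent.S05
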