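import Fermat.Agent.S05.Ord
import Fermat.Agent.S05.Kummer

set_option autoImplicit false

namespace Fermat.Agent.S05

open WeierstrassCurve WeierstrassCurve.Affine

variable {K : Type*} [Field K] {G : Type*} [AddCommGroup G] [LinearOrder G]
  [IsOrderedAddMonoid G] {V : OrdData K G} {W : Affine K}

namespace OrdData

lemma unit_add {x y : K} (hx : x ≠ 0) (hx0 : V.ord x = 0) (hy : V.Gt y 0) :
    x + y ≠ 0 ∧ V.ord (x + y) = 0 := by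
  have h := ord_add_eq (V := V) hx (by rwa [hx0])
  rwa [hx0] at h

lemma Ge.inv_unit {x : K} (hx : x ≠ 0) (hx0 : V.ord x = 0) : V.Ge x⁻¹ 0 := by
  right; rw [V.ord_inv hx, hx0, neg_zero]

lemma Ge.div_unit {x y : K} (hx : V.Ge x 0) (hy : y ≠ 0) (hy0 : V.ord y = 0) : V.Ge (x / y) 0 := by
  rw [div_eq_mul_inv]; exact hx.mul0 (Ge.inv_unit hy hy0)

end OrdData

open OrdData

/-- Valuation analysis of the Kummer relations for two points in the kernel of reduction,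
in terms of `z = 1/x`. -/
theorem E1_pair (hb₂ : V.Ge W.b₂ 0) (hb₄ : V.Ge W.b₄ 0) (hb₆ : V.Ge W.b₆ 0) (hb₈ : V.Ge W.b₈ 0)
    {z₁ z₂ xp xm : K} (hz₁0 : z₁ ≠ 0) (hz₁ : 0 < V.ord z₁) (hz₂0 : z₂ ≠ 0) (hz₂ : 0 < V.ord z₂)
    (hne : z₁ ≠ z₂)
    (h1 : (z₂ - z₁) ^ 2 * (xp * xm) =
      1 - W.b₄ * z₁ * z₂ - W.b₆ * z₁ * z₂ * (z₁ + z₂) - W.b₈ * z₁ ^ 2 * z₂ ^ 2)
    (h2 : (z₂ - z₁) ^ 2 * (xp + xm) =
      2 * (z₁ + z₂) + W.b₂ * z₁ * z₂ + W.b₄ * z₁ * z₂ * (z₁ + z₂) + W.b₆ * z₁ ^ 2 * z₂ ^ 2) :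
    xp ≠ 0 ∧ V.ord xp < 0 ∧ xm ≠ 0 ∧ V.ord xm < 0 ∧
      ∃ c, V.Ge c 0 ∧ xp⁻¹ + xm⁻¹ - 2 * (z₁ + z₂) = z₁ * z₂ * c := by
  have gz₁ : V.Gt z₁ 0 := gt_of_ne hz₁0 hz₁
  have gz₂ : V.Gt z₂ 0 := gt_of_ne hz₂0 hz₂
  have i2 : V.Ge (2 : K) 0 := Ge.ofNat 2
  -- the denominator is a unit
  obtain ⟨D, hDdef⟩ : ∃ D, D = 1 - W.b₄ * z₁ * z₂ - W.b₆ * z₁ * z₂ * (z₁ + z₂) -
      W.b₈ * z₁ ^ 2 * z₂ ^ 2 := ⟨_, rfl⟩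
  rw [← hDdef] at h1
  have hD : D ≠ 0 ∧ V.ord D = 0 := by
    have e : D = 1 + (-(W.b₄ * z₁ * z₂) - W.b₆ * z₁ * z₂ * (z₁ + z₂) -
        W.b₈ * z₁ ^ 2 * z₂ ^ 2) := by rw [hDdef]; ring
    rw [e]
    refine unit_add one_ne_zero V.ord_one ?_
    refine Gt.sub (Gt.sub ?_ ?_) ?_
    · exact (Gt.mul_right0 (Gt.mul_left0 hb₄ gz₁) gz₂.ge).neg
    · exact Gt.mul_right0 (Gt.mul_right0 (Gt.mul_left0 hb₆ gz₁) gz₂.ge) (gz₁.ge.add gz₂.ge)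
    · exact Gt.mul_right0 (Gt.mul_left0 hb₈ (Gt.mul_right0 gz₁ gz₁.ge |> fun h => by
        simpa [pow_two] using h)) (gz₂.ge.pow0 2)
  obtain ⟨hD0, hDord⟩ := hD
  have hd : z₂ - z₁ ≠ 0 := sub_ne_zero.mpr (Ne.symm hne)
  have hd2 : (z₂ - z₁) ^ 2 ≠ 0 := pow_ne_zero 2 hd
  have hpm : xp * xm ≠ 0 := by
    intro h; rw [h, mul_zero] at h1; exact hD0 h1.symm
  have hxp : xp ≠ 0 := left_ne_zero_of_mul hpm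
  have hxm : xm ≠ 0 := right_ne_zero_of_mul hpm
  have he : min (V.ord z₁) (V.ord z₂) ≤ V.ord (z₂ - z₁) := by
    have : V.Ge (z₂ - z₁) (min (V.ord z₁) (V.ord z₂)) :=
      Ge.sub (ge_of_ne hz₂0 (min_le_right _ _)) (ge_of_ne hz₁0 (min_le_left _ _))
    exact this.le hd
  have hsum : 2 • V.ord (z₂ - z₁) + (V.ord xp + V.ord xm) = 0 := by
    have := congrArg V.ord h1
    rw [V.ord_mul _ _ hd2 hpm, V.ord_pow hd, V.ord_mul _ _ hxp hxm, hDord] at this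
    exact this
  have hN : V.Ge (xp + xm) (min (V.ord z₁) (V.ord z₂) - 2 • V.ord (z₂ - z₁)) := by
    refine Ge.of_mul_eq hd2 ((mul_comm _ _).trans h2) ?_
    rw [V.ord_pow hd, sub_add_cancel]
    have m1 : V.Ge z₁ (min (V.ord z₁) (V.ord z₂)) := ge_of_ne hz₁0 (min_le_left _ _)
    have m2 : V.Ge z₂ (min (V.ord z₁) (V.ord z₂)) := ge_of_ne hz₂0 (min_le_right _ _)
    refine Ge.add (Ge.add (Ge.add ?_ ?_) ?_) ?_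
    · exact Ge.mul_left0 i2 (m1.add m2)
    · exact Ge.mul_right0 (Ge.mul_left0 hb₂ m1) gz₂.ge
    · exact Ge.mul_right0 (Ge.mul_right0 (Ge.mul_left0 hb₄ m1) gz₂.ge) (gz₁.ge.add gz₂.ge)
    · exact Ge.mul_right0 (Ge.mul_left0 hb₆ (by
        have := Ge.mul_right0 m1 gz₁.ge; simpa [pow_two] using this)) (gz₂.ge.pow0 2)
  have hult : V.ord xp ≠ V.ord xm → xp + xm ≠ 0 ∧ V.ord (xp + xm) = min (V.ord xp) (V.ord xm) :=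
    fun h => ord_add_of_ne hxp hxm h
  have hN' : xp + xm = 0 ∨ min (V.ord z₁) (V.ord z₂) - 2 • V.ord (z₂ - z₁) ≤ V.ord (xp + xm) := hN
  have hp_neg : V.ord xp < 0 := by grind
  have hm_neg : V.ord xm < 0 := by grind
  refine ⟨hxp, hp_neg, hxm, hm_neg, ?_⟩
  refine ⟨(W.b₂ + W.b₄ * (z₁ + z₂) + W.b₆ * z₁ * z₂ +
      2 * (z₁ + z₂) * (W.b₄ + W.b₆ * (z₁ + z₂) + W.b₈ * z₁ * z₂)) / D, ?_, ?_⟩
  · refine Ge.div_unit ?_ hD0 hDord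
    have s : V.Ge (z₁ + z₂) 0 := gz₁.ge.add gz₂.ge
    refine Ge.add (Ge.add (Ge.add hb₂ (hb₄.mul0 s)) ((hb₆.mul0 gz₁.ge).mul0 gz₂.ge)) ?_
    exact (i2.mul0 s).mul0 (Ge.add (Ge.add hb₄ (hb₆.mul0 s)) ((hb₈.mul0 gz₁.ge).mul0 gz₂.ge))
  · have e1 : xp⁻¹ + xm⁻¹ = (2 * (z₁ + z₂) + W.b₂ * z₁ * z₂ + W.b₄ * z₁ * z₂ * (z₁ + z₂) +
        W.b₆ * z₁ ^ 2 * z₂ ^ 2) / D := by
      rw [← h1, ← h2]; field_simp; ring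
    rw [e1]
    field_simp
    rw [hDdef]
    ring

end Fermat.Agent.S05

namespace Fermat.Agent.S05

open WeierstrassCurve WeierstrassCurve.Affine OrdData

variable {K : Type*} [Field K] {G : Type*} [AddCommGroup G] [LinearOrder G]
  [IsOrderedAddMonoid G] {V : OrdData K G} {W : Affine K}

lemma ord_four (h2 : (2 : K) ≠ 0) (h2u : V.ord (2 : K) = 0) :
    (4 : K) ≠ 0 ∧ V.ord (4 : K) = 0 := by
  have e : (4 : K) = 2 * 2 := by norm_num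
  refine ⟨by rw [e]; exact mul_ne_zero h2 h2, ?_⟩
  rw [e, V.ord_mul _ _ h2 h2, h2u, add_zero]

lemma E1_psi_ne (h2 : (2 : K) ≠ 0) (h2u : V.ord (2 : K) = 0)
    (hb₂ : V.Ge W.b₂ 0) (hb₄ : V.Ge W.b₄ 0) (hb₆ : V.Ge W.b₆ 0)
    {z : K} (hz0 : z ≠ 0) (hz : 0 < V.ord z) :
    4 * z + W.b₂ * z ^ 2 + 2 * W.b₄ * z ^ 3 + W.b₆ * z ^ 4 ≠ 0 := by
  have gz : V.Gt z 0 := gt_of_ne hz0 hz
  have i2 : V.Ge (2 : K) 0 := Ge.ofNat 2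
  obtain ⟨h40, h4u⟩ := ord_four h2 h2u
  have hU : 4 + (W.b₂ * z + 2 * W.b₄ * z * z + W.b₆ * z * z ^ 2) ≠ 0 ∧
      V.ord (4 + (W.b₂ * z + 2 * W.b₄ * z * z + W.b₆ * z * z ^ 2)) = 0 := by
    refine unit_add h40 h4u ?_
    refine Gt.add (Gt.add ?_ ?_) ?_
    · exact Gt.mul_left0 hb₂ gz
    · exact Gt.mul_right0 (Gt.mul_left0 (i2.mul0 hb₄) gz) gz.ge
    · exact Gt.mul_right0 (Gt.mul_left0 hb₆ gz) (gz.ge.pow0 2)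
  have e : 4 * z + W.b₂ * z ^ 2 + 2 * W.b₄ * z ^ 3 + W.b₆ * z ^ 4 =
      z * (4 + (W.b₂ * z + 2 * W.b₄ * z * z + W.b₆ * z * z ^ 2)) := by ring
  rw [e]
  exact mul_ne_zero hz0 hU.1

/-- Valuation analysis of the duplication formula in the kernel of reduction. -/
theorem E1_dbl (h2 : (2 : K) ≠ 0) (h2u : V.ord (2 : K) = 0)
    (hb₂ : V.Ge W.b₂ 0) (hb₄ : V.Ge W.b₄ 0) (hb₆ : V.Ge W.b₆ 0) (hb₈ : V.Ge W.b₈ 0)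
    {z x' : K} (hz0 : z ≠ 0) (hz : 0 < V.ord z)
    (hd : x' * (4 * z + W.b₂ * z ^ 2 + 2 * W.b₄ * z ^ 3 + W.b₆ * z ^ 4) =
      1 - W.b₄ * z ^ 2 - 2 * W.b₆ * z ^ 3 - W.b₈ * z ^ 4) :
    x' ≠ 0 ∧ V.ord x' < 0 ∧ ∃ c, V.Ge c 0 ∧ x'⁻¹ - 4 * z = z ^ 2 * c := by
  have gz : V.Gt z 0 := gt_of_ne hz0 hz
  have i2 : V.Ge (2 : K) 0 := Ge.ofNat 2
  obtain ⟨h40, h4u⟩ := ord_four h2 h2u
  obtain ⟨D, hDdef⟩ : ∃ D, D = 1 - W.b₄ * z ^ 2 - 2 * W.b₆ * z ^ 3 - W.b₈ * z ^ 4 := ⟨_, rfl⟩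
  rw [← hDdef] at hd
  have hD : D ≠ 0 ∧ V.ord D = 0 := by
    have e : D = 1 + (-(W.b₄ * (z * z)) - 2 * W.b₆ * z * (z ^ 2) - W.b₈ * z * z ^ 3) := by
      rw [hDdef]; ring
    rw [e]
    refine unit_add one_ne_zero V.ord_one ?_
    refine Gt.sub (Gt.sub ?_ ?_) ?_
    · exact (Gt.mul_left0 hb₄ (Gt.mul_right0 gz gz.ge)).neg
    · exact Gt.mul_right0 (Gt.mul_left0 (i2.mul0 hb₆) gz) (gz.ge.pow0 2)
    · exact Gt.mul_right0 (Gt.mul_left0 hb₈ gz) (gz.ge.pow0 3)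
  obtain ⟨hD0, hDord⟩ := hD
  obtain ⟨U, hUdef⟩ : ∃ U, U = 4 + (W.b₂ * z + 2 * W.b₄ * z * z + W.b₆ * z * z ^ 2) := ⟨_, rfl⟩
  have hU : U ≠ 0 ∧ V.ord U = 0 := by
    rw [hUdef]
    refine unit_add h40 h4u ?_
    refine Gt.add (Gt.add ?_ ?_) ?_
    · exact Gt.mul_left0 hb₂ gz
    · exact Gt.mul_right0 (Gt.mul_left0 (i2.mul0 hb₄) gz) gz.ge
    · exact Gt.mul_right0 (Gt.mul_left0 hb₆ gz) (gz.ge.pow0 2)
  obtain ⟨hU0, hUord⟩ := hU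
  have hd' : x' * (z * U) = D := by rw [← hd, hUdef]; ring
  have hx' : x' ≠ 0 := by
    intro h; rw [h, zero_mul] at hd'; exact hD0 hd'.symm
  have hord : V.ord x' + (V.ord z + 0) = 0 := by
    have := congrArg V.ord hd'
    rwa [V.ord_mul _ _ hx' (mul_ne_zero hz0 hU0), V.ord_mul _ _ hz0 hU0, hUord, hDord] at this
  refine ⟨hx', by grind, (W.b₂ + 6 * W.b₄ * z + 9 * W.b₆ * z ^ 2 + 4 * W.b₈ * z ^ 3) / D, ?_, ?_⟩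
  · refine Ge.div_unit ?_ hD0 hDord
    refine Ge.add (Ge.add (Ge.add hb₂ ?_) ?_) ?_
    · exact ((Ge.ofNat 6).mul0 hb₄).mul0 gz.ge
    · exact ((Ge.ofNat 9).mul0 hb₆).mul0 (gz.ge.pow0 2)
    · exact ((Ge.ofNat 4).mul0 hb₈).mul0 (gz.ge.pow0 3)
  · have e1 : x'⁻¹ = z * U / D := by
      rw [← hd']; field_simp
    rw [e1]
    field_simp
    rw [hUdef, hDdef]
    ring

/-- Membership in the kernel of reduction. -/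
def inE1 (V : OrdData K G) (P : W.Point) : Prop :=
  P = 0 ∨ (xOf P ≠ 0 ∧ V.ord (xOf P) < 0)

lemma inE1_zero : inE1 V (0 : W.Point) := Or.inl rfl

lemma inE1_neg {P : W.Point} (h : inE1 V P) : inE1 V (-P) := by
  rcases h with h | h
  · left; rw [h]; rfl
  · right; rwa [xOf_neg]

lemma inE1_inv_ge {P : W.Point} (h : inE1 V P) : V.Ge (xOf P)⁻¹ 0 := by
  rcases h with h | ⟨h0, h1⟩
  · left; rw [h]; simp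
  · right; rw [V.ord_inv h0]; grind

variable [DecidableEq K]

theorem E1_double (h2 : (2 : K) ≠ 0) (h2u : V.ord (2 : K) = 0)
    (hb₂ : V.Ge W.b₂ 0) (hb₄ : V.Ge W.b₄ 0) (hb₆ : V.Ge W.b₆ 0) (hb₈ : V.Ge W.b₈ 0)
    (P : W.Point) (hP : inE1 V P) :
    inE1 V (P + P) ∧ ∃ c, V.Ge c 0 ∧
      (xOf (P + P))⁻¹ - 4 * (xOf P)⁻¹ = ((xOf P)⁻¹) ^ 2 * c := by
  rcases P with _ | ⟨x, y, h⟩
  · refine ⟨Or.inl rfl, 0, Ge.zero 0, ?_⟩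
    change (xOf ((0 : W.Point) + 0))⁻¹ - 4 * (xOf (0 : W.Point))⁻¹ = _
    simp
  · rcases hP with hP | ⟨hx0, hxord⟩
    · exact absurd hP (Point.some_ne_zero h)
    simp only [xOf_some] at hx0 hxord ⊢
    have hz0 : x⁻¹ ≠ 0 := inv_ne_zero hx0
    have hz : 0 < V.ord x⁻¹ := by rw [V.ord_inv hx0]; grind
    have key : ∀ x' : K, x' * psiSq W x = dblNum W x →
        x' * (4 * x⁻¹ + W.b₂ * x⁻¹ ^ 2 + 2 * W.b₄ * x⁻¹ ^ 3 + W.b₆ * x⁻¹ ^ 4) =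
          1 - W.b₄ * x⁻¹ ^ 2 - 2 * W.b₆ * x⁻¹ ^ 3 - W.b₈ * x⁻¹ ^ 4 := by
      intro x' hx'
      simp only [psiSq, dblNum] at hx'
      field_simp
      linear_combination hx'
    have hpsi : psiSq W x ≠ 0 := by
      intro hpsi
      have h1 := E1_psi_ne (W := W) h2 h2u hb₂ hb₄ hb₆ hz0 hz
      apply h1
      have : 4 * x⁻¹ + W.b₂ * x⁻¹ ^ 2 + 2 * W.b₄ * x⁻¹ ^ 3 + W.b₆ * x⁻¹ ^ 4 =
          psiSq W x * x⁻¹ ^ 4 := by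
        simp only [psiSq]; field_simp
      rw [this, hpsi, zero_mul]
    obtain ⟨hne, hform⟩ := dbl_formula h2 h hpsi
    obtain ⟨hx'0, hx'ord, c, hc, hc'⟩ := E1_dbl h2 h2u hb₂ hb₄ hb₆ hb₈ hz0 hz (key _ hform)
    exact ⟨Or.inr ⟨hx'0, hx'ord⟩, c, hc, hc'⟩

omit [DecidableEq K] in
lemma exists_of_ne_zero {P : W.Point} (hP : P ≠ 0) :
    ∃ x y, ∃ h : W.Nonsingular x y, P = Point.some x y h := by
  rcases P with _ | ⟨x, y, h⟩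
  · exact absurd rfl hP
  · exact ⟨x, y, h, rfl⟩

theorem E1_add (h2 : (2 : K) ≠ 0) (h2u : V.ord (2 : K) = 0)
    (hb₂ : V.Ge W.b₂ 0) (hb₄ : V.Ge W.b₄ 0) (hb₆ : V.Ge W.b₆ 0) (hb₈ : V.Ge W.b₈ 0)
    (P Q : W.Point) (hP : inE1 V P) (hQ : inE1 V Q) :
    inE1 V (P + Q) ∧ inE1 V (P - Q) ∧ ∃ c, V.Ge c 0 ∧
      (xOf (P + Q))⁻¹ + (xOf (P - Q))⁻¹ - 2 * ((xOf P)⁻¹ + (xOf Q)⁻¹) =
        (xOf P)⁻¹ * (xOf Q)⁻¹ * c := by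
  by_cases hP0 : P = 0
  · subst hP0
    rw [zero_add, zero_sub]
    refine ⟨hQ, inE1_neg hQ, 0, Ge.zero 0, ?_⟩
    simp only [xOf_neg, xOf_zero, inv_zero]
    ring
  by_cases hQ0 : Q = 0
  · subst hQ0
    rw [add_zero, sub_zero]
    refine ⟨hP, hP, 0, Ge.zero 0, ?_⟩
    simp only [xOf_zero, inv_zero]
    ring
  obtain ⟨x₁, y₁, h₁, rfl⟩ := exists_of_ne_zero hP0
  obtain ⟨x₂, y₂, h₂, rfl⟩ := exists_of_ne_zero hQ0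
  obtain ⟨hx₁0, hx₁⟩ := hP.resolve_left hP0
  obtain ⟨hx₂0, hx₂⟩ := hQ.resolve_left hQ0
  simp only [xOf_some] at hx₁0 hx₁ hx₂0 hx₂ ⊢
  by_cases hx : x₁ = x₂
  · rcases (Point.X_eq_iff (h₁ := h₁) (h₂ := h₂)).mp hx with hPQ | hPQ
    · rw [hPQ, sub_self]
      obtain ⟨hd, c, hc, hc'⟩ := E1_double h2 h2u hb₂ hb₄ hb₆ hb₈ (Point.some x₂ y₂ h₂) hQ
      refine ⟨hd, inE1_zero, c, hc, ?_⟩
      simp only [xOf_zero, inv_zero, xOf_some] at hc' ⊢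
      rw [hx]
      linear_combination hc'
    · rw [hPQ, neg_add_cancel]
      have e : -Point.some x₂ y₂ h₂ - Point.some x₂ y₂ h₂ =
          -(Point.some x₂ y₂ h₂ + Point.some x₂ y₂ h₂) := by abel
      rw [e]
      obtain ⟨hd, c, hc, hc'⟩ := E1_double h2 h2u hb₂ hb₄ hb₆ hb₈ (Point.some x₂ y₂ h₂) hQ
      refine ⟨inE1_zero, inE1_neg hd, c, hc, ?_⟩
      simp only [xOf_zero, inv_zero, xOf_some, xOf_neg] at hc' ⊢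
      rw [hx]
      linear_combination hc'
  · obtain ⟨hp0, hm0, hK1, hK2⟩ := kummer_generic h2 h₁ h₂ hx
    generalize hxpdef : xOf (Point.some x₁ y₁ h₁ + Point.some x₂ y₂ h₂) = xp at hK1 hK2 ⊢
    generalize hxmdef : xOf (Point.some x₁ y₁ h₁ - Point.some x₂ y₂ h₂) = xm at hK1 hK2 ⊢
    have hz₁ : 0 < V.ord x₁⁻¹ := by rw [V.ord_inv hx₁0]; grind
    have hz₂ : 0 < V.ord x₂⁻¹ := by rw [V.ord_inv hx₂0]; grind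
    have h1z : (x₂⁻¹ - x₁⁻¹) ^ 2 * (xp * xm) =
        1 - W.b₄ * x₁⁻¹ * x₂⁻¹ - W.b₆ * x₁⁻¹ * x₂⁻¹ * (x₁⁻¹ + x₂⁻¹) -
          W.b₈ * x₁⁻¹ ^ 2 * x₂⁻¹ ^ 2 := by
      simp only [kumProd] at hK1
      field_simp
      linear_combination hK1
    have h2z : (x₂⁻¹ - x₁⁻¹) ^ 2 * (xp + xm) =
        2 * (x₁⁻¹ + x₂⁻¹) + W.b₂ * x₁⁻¹ * x₂⁻¹ + W.b₄ * x₁⁻¹ * x₂⁻¹ * (x₁⁻¹ + x₂⁻¹) +
          W.b₆ * x₁⁻¹ ^ 2 * x₂⁻¹ ^ 2 := by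
      simp only [kumSum] at hK2
      field_simp
      linear_combination hK2
    obtain ⟨hxp, hxpo, hxm, hxmo, c, hc, hc'⟩ := E1_pair hb₂ hb₄ hb₆ hb₈ (inv_ne_zero hx₁0) hz₁
      (inv_ne_zero hx₂0) hz₂ (fun h => hx (inv_injective h)) h1z h2z
    exact ⟨Or.inr ⟨by rw [hxpdef]; exact hxp, by rw [hxpdef]; exact hxpo⟩,
      Or.inr ⟨by rw [hxmdef]; exact hxm, by rw [hxmdef]; exact hxmo⟩, c, hc, hc'⟩

theorem E1_multiples (h2 : (2 : K) ≠ 0) (h2u : V.ord (2 : K) = 0)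
    (hb₂ : V.Ge W.b₂ 0) (hb₄ : V.Ge W.b₄ 0) (hb₆ : V.Ge W.b₆ 0) (hb₈ : V.Ge W.b₈ 0)
    (T : W.Point) (hT : inE1 V T) (n : ℕ) :
    (inE1 V (n • T) ∧ ∃ c, V.Ge c 0 ∧
      (xOf (n • T))⁻¹ - (n : K) ^ 2 * (xOf T)⁻¹ = ((xOf T)⁻¹) ^ 2 * c) ∧
    (inE1 V ((n + 1) • T) ∧ ∃ c, V.Ge c 0 ∧
      (xOf ((n + 1) • T))⁻¹ - ((n + 1 : ℕ) : K) ^ 2 * (xOf T)⁻¹ = ((xOf T)⁻¹) ^ 2 * c) := by
  induction n with
  | zero =>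
    refine ⟨⟨by rw [zero_smul]; exact inE1_zero, 0, Ge.zero 0, ?_⟩, ⟨by rw [zero_add, one_smul]; exact hT, 0, Ge.zero 0, ?_⟩⟩
    · simp
    · simp
  | succ n ih =>
    obtain ⟨⟨hn, c₀, hc₀, e₀⟩, ⟨hn1, c₁, hc₁, e₁⟩⟩ := ih
    refine ⟨⟨hn1, c₁, hc₁, e₁⟩, ?_⟩
    obtain ⟨hadd, -, c, hc, e⟩ := E1_add h2 h2u hb₂ hb₄ hb₆ hb₈ ((n + 1) • T) T hn1 hT
    have e2 : (n + 1) • T + T = (n + 1 + 1) • T := (succ_nsmul T (n + 1)).symm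
    have e3 : (n + 1) • T - T = n • T := by rw [succ_nsmul, add_sub_cancel_right]
    rw [e2, e3] at e
    rw [e2] at hadd
    have hζ : V.Ge (xOf T)⁻¹ 0 := inE1_inv_ge hT
    refine ⟨hadd, -c₀ + 2 * c₁ + ((n + 1 : ℕ) : K) ^ 2 * c + (xOf T)⁻¹ * c₁ * c, ?_, ?_⟩
    · refine Ge.add (Ge.add (Ge.add hc₀.neg ((Ge.ofNat 2).mul0 hc₁)) ?_) ?_
      · exact ((Ge.natCast (n + 1)).pow0 2).mul0 hc
      · exact (hζ.mul0 hc₁).mul0 hc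
    · push_cast at e₀ e₁ e ⊢
      linear_combination e - e₀ + (2 + (xOf T)⁻¹ * c) * e₁

theorem E1_torsion (h2 : (2 : K) ≠ 0) (h2u : V.ord (2 : K) = 0)
    (hb₂ : V.Ge W.b₂ 0) (hb₄ : V.Ge W.b₄ 0) (hb₆ : V.Ge W.b₆ 0) (hb₈ : V.Ge W.b₈ 0)
    (T : W.Point) (hT : inE1 V T) (n : ℕ) (hn : (n : K) ≠ 0) (hnu : V.ord (n : K) = 0)
    (h : n • T = 0) : T = 0 := by
  by_contra hT0
  obtain ⟨hx0, hxord⟩ := hT.resolve_left hT0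
  obtain ⟨⟨-, c, hc, e⟩, -⟩ := E1_multiples h2 h2u hb₂ hb₄ hb₆ hb₈ T hT n
  rw [h] at e
  simp only [xOf_zero, inv_zero, zero_sub] at e
  have hz0 : (xOf T)⁻¹ ≠ 0 := inv_ne_zero hx0
  have e' : -((n : K) ^ 2) = (xOf T)⁻¹ * c := by
    apply mul_left_cancel₀ hz0
    linear_combination e
  have h1 : V.ord (-((n : K) ^ 2)) = 0 := by
    rw [V.ord_neg, V.ord_pow hn, hnu, smul_zero]
  have hgt : V.Gt ((xOf T)⁻¹ * c) 0 :=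
    Gt.mul_right0 (gt_of_ne hz0 (by rw [V.ord_inv hx0]; grind)) hc
  rw [← e'] at hgt
  have := hgt.lt (neg_ne_zero.mpr (pow_ne_zero 2 hn))
  rw [h1] at this
  exact lt_irrefl _ this

end Fermat.Agent.S05
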