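import Mathlib

set_option autoImplicit false

namespace Fermat.Agent.S05

/-- Additive valuation data on the nonzero elements of a field. -/
structure OrdData (K : Type*) [Field K] (G : Type*) [AddCommGroup G] [LinearOrder G]
    [IsOrderedAddMonoid G] where
  ord : K → G
  ord_mul : ∀ x y : K, x ≠ 0 → y ≠ 0 → ord (x * y) = ord x + ord y
  ord_add : ∀ x y : K, x ≠ 0 → y ≠ 0 → x + y ≠ 0 → min (ord x) (ord y) ≤ ord (x + y)

namespace OrdData

variable {K : Type*} [Field K] {G : Type*} [AddCommGroup G] [LinearOrder G]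
  [IsOrderedAddMonoid G] (V : OrdData K G)

lemma nsmul_eq_zero_imp {n : ℕ} (hn : n ≠ 0) {a : G} (h : n • a = 0) : a = 0 := by
  rcases lt_trichotomy a 0 with h1 | h1 | h1
  · have := nsmul_neg h1 hn
    grind
  · exact h1
  · have := nsmul_pos h1 hn
    grind

lemma ord_one : V.ord 1 = 0 := by
  have h := V.ord_mul 1 1 one_ne_zero one_ne_zero
  rw [mul_one] at h
  grind

lemma ord_neg_one : V.ord (-1) = 0 := by
  have h := V.ord_mul (-1) (-1) (by simp) (by simp)
  rw [neg_mul_neg, mul_one, V.ord_one] at h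
  grind

lemma ord_neg (x : K) : V.ord (-x) = V.ord x := by
  by_cases hx : x = 0
  · simp [hx]
  · have h := V.ord_mul (-1) x (by simp) hx
    rw [neg_one_mul, V.ord_neg_one] at h
    grind

lemma ord_inv {x : K} (hx : x ≠ 0) : V.ord x⁻¹ = -V.ord x := by
  have h := V.ord_mul x x⁻¹ hx (inv_ne_zero hx)
  rw [mul_inv_cancel₀ hx, V.ord_one] at h
  grind

lemma ord_div {x y : K} (hx : x ≠ 0) (hy : y ≠ 0) : V.ord (x / y) = V.ord x - V.ord y := by
  rw [div_eq_mul_inv, V.ord_mul x y⁻¹ hx (inv_ne_zero hy), V.ord_inv hy]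
  abel

lemma ord_pow {x : K} (hx : x ≠ 0) (n : ℕ) : V.ord (x ^ n) = n • V.ord x := by
  induction n with
  | zero => simp [V.ord_one]
  | succ n ih =>
    rw [pow_succ, V.ord_mul _ _ (pow_ne_zero n hx) hx, ih, succ_nsmul]

lemma ord_zpow {x : K} (hx : x ≠ 0) (n : ℤ) : V.ord (x ^ n) = n • V.ord x := by
  cases n with
  | ofNat n => simp [V.ord_pow hx]
  | negSucc n =>
    rw [zpow_negSucc, V.ord_inv (pow_ne_zero _ hx), V.ord_pow hx, negSucc_zsmul]

lemma ord_sq {x : K} (hx : x ≠ 0) : V.ord (x ^ 2) = 2 • V.ord x := V.ord_pow hx 2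

/-- `Ge x g`: the element `x` has order at least `g` (zero counts as infinite order). -/
def Ge (x : K) (g : G) : Prop := x = 0 ∨ g ≤ V.ord x

/-- `Gt x g`: the element `x` has order more than `g` (zero counts as infinite order). -/
def Gt (x : K) (g : G) : Prop := x = 0 ∨ g < V.ord x

variable {V}

lemma Ge.zero (g : G) : V.Ge 0 g := Or.inl rfl

lemma Gt.zero (g : G) : V.Gt 0 g := Or.inl rfl

lemma ge_of_ne {x : K} {g : G} (_hx : x ≠ 0) (h : g ≤ V.ord x) : V.Ge x g := Or.inr h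

lemma gt_of_ne {x : K} {g : G} (_hx : x ≠ 0) (h : g < V.ord x) : V.Gt x g := Or.inr h

lemma Ge.le {x : K} {g : G} (h : V.Ge x g) (hx : x ≠ 0) : g ≤ V.ord x := h.resolve_left hx

lemma Gt.lt {x : K} {g : G} (h : V.Gt x g) (hx : x ≠ 0) : g < V.ord x := h.resolve_left hx

lemma Gt.ge {x : K} {g : G} (h : V.Gt x g) : V.Ge x g := h.imp id le_of_lt

lemma Ge.mono {x : K} {g g' : G} (h : V.Ge x g) (hg : g' ≤ g) : V.Ge x g' :=
  h.imp id (le_trans hg)

lemma Gt.mono {x : K} {g g' : G} (h : V.Gt x g) (hg : g' ≤ g) : V.Gt x g' :=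
  h.imp id (lt_of_le_of_lt hg)

lemma Ge.gt_of_lt {x : K} {g g' : G} (h : V.Ge x g) (hg : g' < g) : V.Gt x g' :=
  h.imp id (lt_of_lt_of_le hg)

lemma Ge.neg {x : K} {g : G} (h : V.Ge x g) : V.Ge (-x) g := by
  rcases h with h | h
  · left; simp [h]
  · right; rwa [V.ord_neg]

lemma Gt.neg {x : K} {g : G} (h : V.Gt x g) : V.Gt (-x) g := by
  rcases h with h | h
  · left; simp [h]
  · right; rwa [V.ord_neg]

lemma Ge.add {x y : K} {g : G} (hx : V.Ge x g) (hy : V.Ge y g) : V.Ge (x + y) g := by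
  by_cases hx0 : x = 0
  · simpa [hx0] using hy
  by_cases hy0 : y = 0
  · simpa [hy0] using hx
  by_cases hxy : x + y = 0
  · left; exact hxy
  right
  have := V.ord_add x y hx0 hy0 hxy
  have h1 := hx.le hx0
  have h2 := hy.le hy0
  exact le_trans (le_min h1 h2) this

lemma Gt.add {x y : K} {g : G} (hx : V.Gt x g) (hy : V.Gt y g) : V.Gt (x + y) g := by
  by_cases hx0 : x = 0
  · simpa [hx0] using hy
  by_cases hy0 : y = 0
  · simpa [hy0] using hx
  by_cases hxy : x + y = 0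
  · left; exact hxy
  right
  have := V.ord_add x y hx0 hy0 hxy
  have h1 := hx.lt hx0
  have h2 := hy.lt hy0
  exact lt_of_lt_of_le (lt_min h1 h2) this

lemma Ge.sub {x y : K} {g : G} (hx : V.Ge x g) (hy : V.Ge y g) : V.Ge (x - y) g := by
  rw [sub_eq_add_neg]; exact hx.add hy.neg

lemma Gt.sub {x y : K} {g : G} (hx : V.Gt x g) (hy : V.Gt y g) : V.Gt (x - y) g := by
  rw [sub_eq_add_neg]; exact hx.add hy.neg

lemma Ge.mul {x y : K} {g h : G} (hx : V.Ge x g) (hy : V.Ge y h) : V.Ge (x * y) (g + h) := by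
  by_cases hx0 : x = 0
  · left; simp [hx0]
  by_cases hy0 : y = 0
  · left; simp [hy0]
  right
  rw [V.ord_mul x y hx0 hy0]
  exact add_le_add (hx.le hx0) (hy.le hy0)

lemma Gt.mul_ge {x y : K} {g h : G} (hx : V.Gt x g) (hy : V.Ge y h) : V.Gt (x * y) (g + h) := by
  by_cases hx0 : x = 0
  · left; simp [hx0]
  by_cases hy0 : y = 0
  · left; simp [hy0]
  right
  rw [V.ord_mul x y hx0 hy0]
  exact add_lt_add_of_lt_of_le (hx.lt hx0) (hy.le hy0)

lemma Ge.mul_gt {x y : K} {g h : G} (hx : V.Ge x g) (hy : V.Gt y h) : V.Gt (x * y) (g + h) := by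
  rw [mul_comm, add_comm]; exact hy.mul_ge hx

lemma Ge.pow {x : K} {g : G} (hx : V.Ge x g) (n : ℕ) : V.Ge (x ^ n) (n • g) := by
  induction n with
  | zero => right; simp [V.ord_one]
  | succ n ih =>
    rw [pow_succ, succ_nsmul]
    exact ih.mul hx

/-- Integral elements. -/
lemma Ge.one : V.Ge (1 : K) 0 := Or.inr (le_of_eq V.ord_one.symm)

lemma Ge.mul0 {x y : K} (hx : V.Ge x 0) (hy : V.Ge y 0) : V.Ge (x * y) 0 := by
  simpa using hx.mul hy

lemma Ge.pow0 {x : K} (hx : V.Ge x 0) (n : ℕ) : V.Ge (x ^ n) 0 := by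
  simpa using hx.pow n

lemma Ge.natCast (n : ℕ) : V.Ge (n : K) 0 := by
  induction n with
  | zero => left; simp
  | succ n ih => rw [Nat.cast_succ]; exact ih.add Ge.one

lemma Ge.ofNat (n : ℕ) [n.AtLeastTwo] : V.Ge (OfNat.ofNat n : K) 0 := by
  have h := Ge.natCast (V := V) n
  have e : ((n : ℕ) : K) = (OfNat.ofNat n : K) := Nat.cast_ofNat
  rwa [e] at h

lemma Ge.intCast (n : ℤ) : V.Ge (n : K) 0 := by
  cases n with
  | ofNat n => simpa using Ge.natCast (V := V) n
  | negSucc n =>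
    rw [Int.cast_negSucc]
    exact (Ge.natCast (V := V) (n + 1)).neg

lemma Ge.mul_left0 {x y : K} {g : G} (hx : V.Ge x 0) (hy : V.Ge y g) : V.Ge (x * y) g := by
  simpa using hx.mul hy

lemma Ge.mul_right0 {x y : K} {g : G} (hx : V.Ge x g) (hy : V.Ge y 0) : V.Ge (x * y) g := by
  simpa using hx.mul hy

lemma Gt.mul_left0 {x y : K} {g : G} (hx : V.Ge x 0) (hy : V.Gt y g) : V.Gt (x * y) g := by
  simpa using hx.mul_gt hy

lemma Gt.mul_right0 {x y : K} {g : G} (hx : V.Gt x g) (hy : V.Ge y 0) : V.Gt (x * y) g := by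
  simpa using hx.mul_ge hy

/-- Ultrametric equality: adding an element of larger order does not change the order. -/
lemma ord_add_eq {x y : K} (hx : x ≠ 0) (hy : V.Gt y (V.ord x)) :
    x + y ≠ 0 ∧ V.ord (x + y) = V.ord x := by
  by_cases hy0 : y = 0
  · simp [hy0, hx]
  have hlt := hy.lt hy0
  have hxy : x + y ≠ 0 := by
    intro h
    have : x = -y := eq_neg_of_add_eq_zero_left h
    rw [this, V.ord_neg] at hlt
    exact lt_irrefl _ hlt
  refine ⟨hxy, le_antisymm ?_ ?_⟩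
  · have h1 := V.ord_add (x + y) (-y) hxy (neg_ne_zero.mpr hy0) (by simpa using hx)
    rw [add_neg_cancel_right, V.ord_neg] at h1
    rcases min_le_iff.mp h1 with h2 | h2
    · exact h2
    · exact absurd h2 (not_le.mpr hlt)
  · have h1 := V.ord_add x y hx hy0 hxy
    rwa [min_eq_left hlt.le] at h1

lemma ord_add_eq' {x y : K} (hx : x ≠ 0) (hy : V.Gt y (V.ord x)) :
    y + x ≠ 0 ∧ V.ord (y + x) = V.ord x := by
  rw [add_comm]; exact ord_add_eq hx hy

lemma ord_sub_eq {x y : K} (hx : x ≠ 0) (hy : V.Gt y (V.ord x)) :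
    x - y ≠ 0 ∧ V.ord (x - y) = V.ord x := by
  rw [sub_eq_add_neg]; exact ord_add_eq hx hy.neg

lemma ord_sub_eq' {x y : K} (hx : x ≠ 0) (hy : V.Gt y (V.ord x)) :
    y - x ≠ 0 ∧ V.ord (y - x) = V.ord x := by
  have h := ord_add_eq (V := V) (x := -x) (y := y) (neg_ne_zero.mpr hx) (by rwa [V.ord_neg])
  rw [V.ord_neg] at h
  rw [sub_eq_add_neg, add_comm]
  exact h

/-- If two nonzero elements have different orders, their sum has the minimum order. -/
lemma ord_add_of_ne {x y : K} (hx : x ≠ 0) (hy : y ≠ 0) (h : V.ord x ≠ V.ord y) :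
    x + y ≠ 0 ∧ V.ord (x + y) = min (V.ord x) (V.ord y) := by
  rcases lt_or_gt_of_ne h with h1 | h1
  · have := ord_add_eq (V := V) hx (gt_of_ne hy h1)
    rw [min_eq_left h1.le]; exact this
  · have := ord_add_eq' (V := V) hy (gt_of_ne hx h1)
    rw [min_eq_right h1.le]; exact this

lemma Ge.of_mul_eq {x y z : K} {g : G} (hy : y ≠ 0) (h : x * y = z) (hz : V.Ge z (g + V.ord y)) :
    V.Ge x g := by
  by_cases hx : x = 0
  · left; exact hx
  right
  have hz0 : z ≠ 0 := by rw [← h]; exact mul_ne_zero hx hy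
  have := hz.le hz0
  rw [← h, V.ord_mul x y hx hy] at this
  exact le_of_add_le_add_right this

end OrdData

end Fermat.Agent.S05
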